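import Fermat.Agent.Supersingular.Unipotent
import Fermat.Agent.EisensteinDescent.JZeroLocal
import Fermat.Agent.EisensteinDescent.HeckeGalois
import Fermat.Agent.ChebotarevFull.Infinite
import Fermat.Agent.HeckeDatum.JacobianInput
import Fermat.Agent.JacCompare.Main
import Fermat.Prelude.Def_GaloisRep_Residual

/-!
# `a_p` is a unit when inertia acts unipotently on the residual representation

For an eigen-system `θ` mod `p` of level `N` prime to `p`, attached to a residual representation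
on which the inertia elements fixing `ζ_p` have characteristic polynomial `(X - 1) ^ 2`, the
eigenvalue of `T_p` is nonzero.
-/

set_option autoImplicit false

noncomputable section

open AlgebraicCurve ModularCurve Polynomial
open Fermat.Agent.HeckeDatum (AwayPoly AwayPrimes toHeckeAlg evalForms)
open Fermat.Agent.GaloisBasics (Qbar GalQ)

namespace Fermat.Agent.Supersingular

/-- In a finite module, if every annihilator of `M` lies in the prime `m`, some nonzero element is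
killed by `m`. -/
theorem exists_killed_of_finite {R M : Type*} [CommRing R] [AddCommGroup M] [Module R M]
    [Finite M] (m : Ideal R) [hm : m.IsPrime] (h : ∀ P : R, (∀ x : M, P • x = 0) → P ∈ m) :
    ∃ z : M, z ≠ 0 ∧ ∀ t ∈ m, t • z = 0 := by
  classical
  have : Fintype M := Fintype.ofFinite M
  obtain ⟨x₁, hx₁⟩ : ∃ x : M, ∀ P : R, P • x = 0 → P ∈ m := by
    by_contra hall
    push Not at hall
    choose P hP hPm using hall
    have hmem : ∏ x, P x ∈ m := h _ fun y => by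
      rw [← Finset.prod_erase_mul Finset.univ P (Finset.mem_univ y), mul_smul, hP, smul_zero]
    obtain ⟨y, -, hy⟩ := hm.prod_mem_iff.mp hmem
    exact hPm y hy
  let orbit : M → Set M := fun x => Set.range fun r : R => r • x
  have hne : (Finset.univ.filter fun x : M => ∀ P : R, P • x = 0 → P ∈ m).Nonempty :=
    ⟨x₁, Finset.mem_filter.mpr ⟨Finset.mem_univ _, hx₁⟩⟩
  obtain ⟨x, hx, hmin⟩ := Finset.exists_min_image _ (fun y : M => (orbit y).ncard) hne
  simp only [Finset.mem_filter, Finset.mem_univ, true_and] at hx hmin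
  have hkill : ∀ t ∈ m, ∃ P ∉ m, P • (t • x) = 0 := by
    intro t ht
    by_contra hno
    push Not at hno
    have hsub : orbit (t • x) ⊆ orbit x := by
      rintro _ ⟨r, rfl⟩
      exact ⟨r * t, mul_smul r t x⟩
    have hle := hmin (t • x) fun P hP => by
      by_contra hPm
      exact hno P hPm hP
    obtain ⟨s, hs⟩ : x ∈ orbit (t • x) := by
      rw [Set.eq_of_subset_of_ncard_le hsub hle (Set.toFinite _)]
      exact ⟨1, one_smul R x⟩
    simp only at hs
    have h1 : (s * t - 1) • x = 0 := by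
      rw [sub_smul, one_smul, mul_smul, hs, sub_self]
    have h2 := hx _ h1
    exact hm.ne_top ((Ideal.eq_top_iff_one m).mpr (by
      simpa using Ideal.sub_mem m (Ideal.mul_mem_left m s ht) h2))
  choose P hPm hP using hkill
  let T : Finset M := Finset.univ.filter fun y => ∃ t ∈ m, t • x = y
  have hT : ∀ y : {y // y ∈ T}, ∃ t ∈ m, t • x = y.1 := fun y => (Finset.mem_filter.mp y.2).2
  choose tt htt htx using hT
  set Q : R := ∏ y ∈ T.attach, P (tt y) (htt y) with hQ
  have hQm : Q ∉ m := fun hmem => by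
    obtain ⟨y, -, hy⟩ := hm.prod_mem_iff.mp hmem
    exact hPm _ _ hy
  refine ⟨Q • x, fun h0 => hQm (hx _ h0), fun t ht => ?_⟩
  have hy : t • x ∈ T := Finset.mem_filter.mpr ⟨Finset.mem_univ _, t, ht, rfl⟩
  rw [smul_comm, hQ, ← Finset.prod_erase_mul _ _ (Finset.mem_attach T ⟨_, hy⟩), mul_smul,
    show P (tt ⟨_, hy⟩) (htt _) • t • x = 0 from
      (congrArg (P (tt ⟨_, hy⟩) (htt _) • ·) (htx ⟨_, hy⟩).symm).trans (hP _ _), smul_zero]

variable {N p : ℕ} [NeZero N] {S : Set ℕ}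

omit [NeZero N] in
theorem galois_smul_torsion (σ : GalQ) {n : ℕ} {x : JZero N} (hx : n • x = 0) :
    n • σ • x = 0 :=
  EisensteinDescent.IsReductionKernel.smul_mem_torsion σ hx

/-- An eigen-system mod `p` occurs in `J₀(N)[p]`: a nonzero `p`-torsion point is killed by the
kernel of the eigen-system on the polynomial ring in the Hecke operators away from `S`. -/
theorem exists_eigen_torsion (hp : p.Prime) (hNS : ∀ q : ℕ, q.Prime → q ∣ N → q ∈ S)
    {k : Type} [Field k] [CharP k p] (θ : CuspForm.heckeAlgebra N 2 S →+* k) :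
    letI := heckeModuleBar N
    ∃ z : JZero N, z ≠ 0 ∧ p • z = 0 ∧
      ∀ t ∈ RingHom.ker (θ.comp (evalForms hNS)), toHeckeAlg S t • z = 0 := by
  classical
  let := heckeModuleBar N
  have := EisensteinDescent.smulCommClass_heckeAlg (N := N)
  have : Fact p.Prime := ⟨hp⟩
  let : Module (AwayPoly S) (JZero N) := Module.compHom _ (toHeckeAlg S)
  set m : Ideal (AwayPoly S) := RingHom.ker (θ.comp (evalForms hNS)) with hm
  have : m.IsPrime := RingHom.ker_isPrime _
  have hfaith := JacCompare.jacobianFaithful_all hNS hp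
  obtain ⟨j, hj⟩ := hfaith.ann_le 1
  let Mj : Submodule (AwayPoly S) (JZero N) :=
    { carrier := {x | p ^ j • x = 0}
      zero_mem' := smul_zero _
      add_mem' := fun {a b} ha hb => by
        show p ^ j • (a + b) = 0
        rw [nsmul_add, show p ^ j • a = 0 from ha, show p ^ j • b = 0 from hb, add_zero]
      smul_mem' := fun c x hx => by
        show p ^ j • (c • x) = 0
        rw [smul_comm, show p ^ j • x = 0 from hx, smul_zero] }
  have : Finite Mj := by
    have hcard := JacCompare.card_torsBy N (p ^ j) (pow_pos hp.pos j)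
    have : Finite (JacCompare.torsBy N (p ^ j)) :=
      Nat.finite_of_card_ne_zero (by rw [hcard]; exact pow_ne_zero _ (pow_ne_zero _ hp.ne_zero))
    exact Finite.of_injective (fun x : Mj => (⟨x.1, x.2⟩ : JacCompare.torsBy N (p ^ j)))
      fun x y h => Subtype.ext (congrArg Subtype.val h)
  obtain ⟨⟨z, hzM⟩, hz0, hzm⟩ := exists_killed_of_finite (M := Mj) m fun P hP => by
    obtain ⟨u, hu⟩ := hj P fun x hx => congrArg Subtype.val (hP ⟨x, hx⟩)
    rw [hm, RingHom.mem_ker, RingHom.comp_apply, hu, pow_one, map_mul, map_natCast,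
      CharP.cast_eq_zero, zero_mul]
  have hpm : ((p : AwayPoly S)) ∈ m := by
    rw [hm, RingHom.mem_ker, map_natCast, CharP.cast_eq_zero]
  refine ⟨z, fun h => hz0 (Subtype.ext h), ?_, fun t ht => congrArg Subtype.val (hzm t ht)⟩
  have h := congrArg Subtype.val (hzm _ hpm)
  simp only [SetLike.val_smul, ZeroMemClass.coe_zero] at h
  rwa [Nat.cast_smul_eq_nsmul] at h

/-- By Chebotarev, every element is simultaneously, on a finite stable group of `p`-torsion points
and in a residual representation, a Frobenius or the inverse of one outside any finite set. -/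
theorem exists_frobenius_pair (hp : p.Prime) (hNS : ∀ q : ℕ, q.Prime → q ∣ N → q ∈ S)
    {W : AddSubgroup (JZero N)} (hWp : ∀ x ∈ W, p • x = 0) (hWfin : (W : Set (JZero N)).Finite)
    (hWgal : ∀ (σ : GalQ), ∀ x ∈ W, σ • x ∈ W) {k : Type} [Field k] [Finite k]
    (ρ : ResidualGaloisRep k) (σ : GalQ) (T : Finset ℕ) :
    ∃ (ℓ : ℕ) (_ : ℓ.Prime) (_ : ℓ ∉ T) (B : ValuationSubring Qbar) (_ : B.LiesOverPrime ℓ)
      (φ : GalQ) (_ : B.IsFrobeniusAt φ ℓ) (τ : GalQ), (τ = σ ∨ τ = σ⁻¹) ∧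
      ρ.ρ φ = ρ.ρ τ ∧ ∀ x ∈ W, φ • x = τ • x := by
  have : Fact p.Prime := ⟨hp⟩
  have hfaith := JacCompare.jacobianFaithful_all hNS hp
  have : Finite W := hWfin.to_subtype
  let actW : GalQ →* Equiv.Perm W :=
    { toFun := fun σ =>
        { toFun := fun x => ⟨σ • (x : JZero N), hWgal σ x x.2⟩
          invFun := fun x => ⟨σ⁻¹ • (x : JZero N), hWgal σ⁻¹ x x.2⟩
          left_inv := fun x => Subtype.ext (inv_smul_smul σ (x : JZero N))
          right_inv := fun x => Subtype.ext (smul_inv_smul σ (x : JZero N)) }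
      map_one' := Equiv.ext fun x => Subtype.ext (one_smul GalQ (x : JZero N))
      map_mul' := fun σ τ => Equiv.ext fun x => Subtype.ext (mul_smul σ τ (x : JZero N)) }
  have : Finite ρ.V := Module.finite_of_finite k
  have : Finite (Module.End k ρ.V) := Finite.of_injective _ DFunLike.coe_injective
  let π : GalQ →* Equiv.Perm W × (Module.End k ρ.V)ˣ := actW.prod ρ.ρ.toHomUnits
  have hπfin : GaloisFactorsThroughFiniteLevel π := by
    obtain ⟨L₁, hL₁, h₁⟩ := hfaith.finiteLevel 1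
    obtain ⟨L₂, hL₂, h₂⟩ := ρ.factorsThroughFiniteLevel
    refine ⟨L₁ ⊔ L₂, inferInstance, fun σ hσ => Prod.ext (Equiv.ext fun x => Subtype.ext ?_)
      (Units.ext (h₂ σ fun y hy => hσ y ((le_sup_right : L₂ ≤ L₁ ⊔ L₂) hy)))⟩
    exact h₁ σ (fun y hy => hσ y ((le_sup_left : L₁ ≤ L₁ ⊔ L₂) hy)) x.1
      (by rw [pow_one]; exact hWp _ x.2)
  obtain ⟨ℓ, hℓ, hℓT, -, B, hB, φ, hφ, hπφ⟩ :=
    ChebotarevFull.exists_frobenius_eq_or_inv π hπfin σ T
  obtain ⟨τ, hτ, hπτ⟩ : ∃ τ, (τ = σ ∨ τ = σ⁻¹) ∧ π φ = π τ := by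
    rcases hπφ with h | h
    · exact ⟨σ, Or.inl rfl, h⟩
    · exact ⟨σ⁻¹, Or.inr rfl, by rw [h, map_inv]⟩
  exact ⟨ℓ, hℓ, hℓT, B, hB, φ, hφ, τ, hτ,
    congrArg (fun a => (a.2 : Module.End k ρ.V)) hπτ, fun x hx =>
      congrArg Subtype.val (Equiv.congr_fun (congrArg Prod.fst hπτ) ⟨x, hx⟩)⟩

/-- If `(X - 1) ^ 2 = X ^ 2 - a X + l` then `l = 1` and `a = 2`. -/
theorem eq_one_and_eq_two_of_sq {k : Type*} [CommRing k] {a l : k}
    (h : (X - C 1) ^ 2 = X ^ 2 - C a * X + C l) : l = 1 ∧ a = 2 := by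
  have h0 := congrArg (fun f : k[X] => f.eval 0) h
  have h1 := congrArg (fun f : k[X] => f.eval 1) h
  simp at h0 h1
  refine ⟨h0.symm, ?_⟩
  rw [← h0] at h1
  linear_combination h1

/-- If `σ` or `σ⁻¹` satisfies `(τ - 1) ^ 2 = 0` on a stable group then so does `σ`. -/
theorem smul_sub_eq_of_relation {G V : Type*} [Group G] [AddCommGroup V] [DistribMulAction G V]
    {σ τ : G} (hτ : τ = σ ∨ τ = σ⁻¹) {w : V} (hrel : τ • τ • w - 2 • τ • w + w = 0) :
    σ • (σ • w - w) = σ • w - w := by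
  rcases hτ with rfl | rfl
  · rw [two_smul] at hrel
    rw [smul_sub, ← sub_eq_zero, ← hrel]
    abel
  · have h3 := congrArg (fun y => σ • σ • y) hrel
    simp only [smul_add, smul_sub, smul_inv_smul, two_smul, smul_zero] at h3
    rw [smul_sub, ← sub_eq_zero]
    refine Eq.trans ?_ h3
    abel

/-- **`a_p` is a unit.** -/
theorem theta_T_ne_zero [NeZero (Nat.lcm N 2)] [NeZero p] (hp : p.Prime) (hp2 : p ≠ 2)
    (hN : ¬ p ∣ N) {A : ValuationSubring Qbar} (hA : A.LiesOverPrime p)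
    (hgood : HasTameModel A (Nat.lcm N 2)) {ζ : Qbar} (hζ : IsPrimitiveRoot ζ p)
    (hsp : letI := heckeModuleBar N; letI := EisensteinDescent.smulCommClass_heckeAlg (N := N);
      SpecializationExists (K := ℚ) (L := Qbar) N p (JZero N))
    (hNS : ∀ q : ℕ, q.Prime → q ∣ N → q ∈ S) (hSfin : S.Finite) (hpS : p ∉ S)
    {k : Type} [Field k] [Finite k] [CharP k p] (θ : CuspForm.heckeAlgebra N 2 S →+* k)
    (ρ : ResidualGaloisRep k)
    (hρ : ∀ (ℓ : ℕ) (hℓ : ℓ.Prime) (hℓN : ¬ ℓ ∣ N) (hℓS : ℓ ∉ S), ℓ ≠ p →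
      ∀ B : ValuationSubring Qbar, B.LiesOverPrime ℓ → ∀ φ : GalQ, B.IsFrobeniusAt φ ℓ →
        LinearMap.charpoly (ρ.ρ φ) =
          X ^ 2 - C (θ (CuspForm.heckeAlgebra.T hℓ hℓN hℓS)) * X + C ((ℓ : k)))
    (hH : ∀ σ ∈ tameKernel A ζ, LinearMap.charpoly (ρ.ρ σ) = (X - C 1) ^ 2) :
    θ (CuspForm.heckeAlgebra.T hp hN hpS) ≠ 0 := by
  classical
  intro hTp
  let := heckeModuleBar N
  have := EisensteinDescent.smulCommClass_heckeAlg (N := N)
  have hcomm := HeckeCommute.heckeOperatorsCommuteBar N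
  let : Module (AwayPoly S) (JZero N) := Module.compHom _ (toHeckeAlg S)
  have hsmul : ∀ (P : AwayPoly S) (x : JZero N), P • x = toHeckeAlg S P • x := fun _ _ => rfl
  have hX : ∀ (ℓ : Nat.Primes) (hℓ : (ℓ : ℕ) ∉ S) (x : JZero N),
      (MvPolynomial.X ⟨ℓ, hℓ⟩ : AwayPoly S) • x = heckeOperatorBar N ℓ x := fun ℓ hℓ x => by
    rw [hsmul, ← heckeModuleBar_heckeGen_smul hcomm]
    congr 1
    simp [toHeckeAlg, heckeGen]
  set m : Ideal (AwayPoly S) := RingHom.ker (θ.comp (evalForms hNS)) with hm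
  have hevalX : ∀ (ℓ : Nat.Primes) (hℓ : (ℓ : ℕ) ∉ S), evalForms hNS (MvPolynomial.X ⟨ℓ, hℓ⟩)
      = CuspForm.heckeAlgebra.T ℓ.2 (fun h => hℓ (hNS _ ℓ.2 h)) hℓ := fun ℓ hℓ => by
    simp [evalForms]
  obtain ⟨z, hz0, hpz, hzm⟩ := exists_eigen_torsion hp hNS θ
  -- the eigenspace
  let W : AddSubgroup (JZero N) :=
    { carrier := {x | p • x = 0 ∧ ∀ t ∈ m, t • x = 0}
      zero_mem' := ⟨smul_zero _, fun t _ => smul_zero t⟩
      add_mem' := fun {a b} ha hb => ⟨by rw [nsmul_add, ha.1, hb.1, add_zero],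
        fun t ht => by rw [smul_add, ha.2 t ht, hb.2 t ht, add_zero]⟩
      neg_mem' := fun {a} ha => ⟨by rw [← neg_zero, ← ha.1]; exact (smul_neg p a),
        fun t ht => by rw [smul_neg, ha.2 t ht, neg_zero]⟩ }
  have hzW : z ∈ W := ⟨hpz, hzm⟩
  have hWfin : (W : Set (JZero N)).Finite := by
    have hcard := JacCompare.card_torsBy N p hp.pos
    have : Finite (JacCompare.torsBy N p) :=
      Nat.finite_of_card_ne_zero (by rw [hcard]; exact pow_ne_zero _ hp.ne_zero)
    exact Set.Finite.subset (Set.toFinite (JacCompare.torsBy N p : Set (JZero N)))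
      fun x hx => hx.1
  have hWgal : ∀ (σ : GalQ), ∀ x ∈ W, σ • x ∈ W := fun σ x hx =>
    ⟨galois_smul_torsion σ hx.1, fun t ht => by
      rw [hsmul, ← smul_comm, ← hsmul, hx.2 t ht]
      exact EisensteinDescent.IsReductionKernel.galois_zero σ⟩
  have hbot : W = ⊥ := by
    refine eq_bot_of_unipotent hp hp2 hN hA hgood hζ W hWfin (fun w hw => hw.1)
      (fun w hw => ?_) (fun σ _ => hWgal σ) fun σ hσ w hw => ?_
    · have hmem : (MvPolynomial.X ⟨⟨p, hp⟩, hpS⟩ : AwayPoly S) ∈ m := by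
        rw [hm, RingHom.mem_ker, RingHom.comp_apply]
        exact (congrArg θ (hevalX ⟨p, hp⟩ hpS)).trans hTp
      exact ((hX ⟨p, hp⟩ hpS w).symm.trans (hw.2 _ hmem))
    -- the relation on inertia
    obtain ⟨ℓ, hℓ, hℓS', B, hB, φ, hφ, τ, hτ, hρφ, hact⟩ :=
      exists_frobenius_pair hp hNS (W := W) (fun x hx => hx.1) hWfin hWgal ρ σ (hSfin.toFinset ∪ {p})
    simp only [Finset.mem_union, Set.Finite.mem_toFinset, Finset.mem_singleton, not_or] at hℓS'
    obtain ⟨hℓS, hℓp⟩ := hℓS'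
    have hℓN : ¬ ℓ ∣ N := fun h => hℓS (hNS ℓ hℓ h)
    have hτmem : τ ∈ tameKernel A ζ := by
      rcases hτ with rfl | rfl
      · exact hσ
      · exact mem_tameSubgroup.mp (inv_mem (mem_tameSubgroup.mpr hσ))
    have hpoly := hρ ℓ hℓ hℓN hℓS hℓp B hB φ hφ
    rw [hρφ, hH τ hτmem] at hpoly
    obtain ⟨hℓ1, htr⟩ := eq_one_and_eq_two_of_sq hpoly
    have hℓx : ∀ x ∈ W, ℓ • x = x := fun x hx => by
      have hmod : ℓ % p = 1 := by
        have h1 : (ℓ : k) = ((1 : ℕ) : k) := by rw [hℓ1, Nat.cast_one]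
        rw [CharP.natCast_eq_natCast k p] at h1
        unfold Nat.ModEq at h1
        exact h1.trans (Nat.mod_eq_of_lt hp.one_lt)
      conv_lhs => rw [← Nat.mod_add_div ℓ p, hmod, add_smul, one_smul, mul_smul, smul_comm, hx.1,
        smul_zero, add_zero]
    have hTℓ : ∀ x ∈ W, heckeOperatorBar N ⟨ℓ, hℓ⟩ x = 2 • x := fun x hx => by
      have hmem : (MvPolynomial.X ⟨⟨ℓ, hℓ⟩, hℓS⟩ : AwayPoly S) - 2 ∈ m := by
        rw [hm, RingHom.mem_ker, map_sub, map_ofNat, sub_eq_zero, RingHom.comp_apply]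
        exact (congrArg θ (hevalX ⟨ℓ, hℓ⟩ hℓS)).trans htr
      have h := hx.2 _ hmem
      rw [sub_smul, sub_eq_zero] at h
      refine (hX ⟨ℓ, hℓ⟩ hℓS x).symm.trans (h.trans ?_)
      rw [← Nat.cast_ofNat (R := AwayPoly S)]
      exact Nat.cast_smul_eq_nsmul (AwayPoly S) 2 x
    obtain ⟨Ker, hK⟩ := EisensteinDescent.exists_isReductionKernel hcomm
      (EisensteinDescent.smulCommClass_heckeAlg (N := N)) hsp hℓ hℓN
      (fun h => hℓp ((Nat.prime_dvd_prime_iff_eq hℓ hp).mp h)) hB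
    have hrel := hK.frobenius_quadratic hφ (x := w) ⟨1, by rw [pow_one]; exact hw.1⟩
    rw [hact w hw, hact _ (hWgal τ w hw), hTℓ _ (hWgal τ w hw), hℓx w hw] at hrel
    exact smul_sub_eq_of_relation hτ hrel
  rw [hbot, AddSubgroup.mem_bot] at hzW
  exact hz0 hzW

end Fermat.Agent.Supersingular
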