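import Fermat.Agent.Supersingular.Residual
import Fermat.Agent.Lifting.ConstructorsPoint
import Fermat.Agent.ConductorLevel.Compare
import Fermat.Agent.Specialization.Main
import Fermat.Prelude.Def_GaloisRep_LocalConditions

/-!
# The eigenvalue at `p` of an eigenform with ordinary residual representation is a unit

For an eigenform `f` of level `Γ₀(N)`, `p` odd and prime to `N`, whose residual representation has
an unramified quotient on inertia at `p` and cyclotomic determinant, `a_p(f)` is a unit.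
-/

set_option autoImplicit false

noncomputable section

open IsLocalRing Polynomial ModularCurve CongruenceSubgroup
open Fermat.Agent.GaloisBasics (Qbar GalQ frobenius_apply_of_pow_eq_one)
open Fermat.Agent.HeckeEigen (eigenChar qCoeff_mem_range_eigenChar)
open Fermat.Agent.Lifting (eigenCharTo eigenCharTo_opT thetaOf thetaOf_T)

namespace Fermat.Agent.Supersingular

/-- On inertia fixing `ζ_p`, an ordinary representation is unipotent. -/
theorem charpoly_eq_of_isOrdinaryAt {k : Type} [Field k] {p : ℕ} [CharP k p] [NeZero p]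
    (ρ : ResidualGaloisRep k)
    (hord : (GaloisRepAdic.ofResidualGaloisRep ρ).IsOrdinaryAt p)
    (hdet : (GaloisRepAdic.ofResidualGaloisRep ρ).DetIsCyclotomic p)
    {A : ValuationSubring Qbar} (hA : A.LiesOverPrime p) {ζ : Qbar} (hζ : IsPrimitiveRoot ζ p)
    {σ : GalQ} (hσ : σ ∈ tameKernel A ζ) :
    LinearMap.charpoly (ρ.ρ σ) = (X - C 1) ^ 2 := by
  classical
  obtain ⟨hI, hfix⟩ := hσ
  obtain ⟨L, ⟨b, rfl⟩, hstab, hquot⟩ := hord A hA
  obtain ⟨a, ha⟩ := Submodule.mem_span_singleton.mp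
    (hstab σ (LocalInertia.inertiaSubgroupIn_le_decompositionSubgroup hI) (b 0)
      (Submodule.mem_span_singleton_self _))
  obtain ⟨c, hc⟩ := Submodule.mem_span_singleton.mp (hquot σ hI (b 1))
  set g := (GaloisRepAdic.ofResidualGaloisRep ρ).ρ σ with hg
  have hd : LinearMap.det g = 1 := by
    have h := hdet.2 1 σ 1 fun μ hμ => by
      rw [pow_one] at hμ
      obtain ⟨i, -, rfl⟩ := hζ.eq_pow_of_pow_eq_one hμ
      rw [map_pow, hfix, pow_one]
    rw [pow_one, CharP.cast_eq_zero, Ideal.span_singleton_eq_bot.mpr rfl, Ideal.mem_bot,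
      Nat.cast_one, sub_eq_zero] at h
    exact h
  set M := LinearMap.toMatrix b b g with hM
  have e00 : M 0 0 = a := by
    rw [hM, LinearMap.toMatrix_apply, ← ha]
    simp
  have e10 : M 1 0 = 0 := by
    rw [hM, LinearMap.toMatrix_apply, ← ha]
    simp
  have e11 : M 1 1 = 1 := by
    rw [hM, LinearMap.toMatrix_apply, eq_add_of_sub_eq hc.symm]
    simp
  have ha1 : a = 1 := by
    rw [← LinearMap.det_toMatrix b, ← hM, Matrix.det_fin_two, e10, e00, e11] at hd
    simpa using hd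
  show LinearMap.charpoly g = _
  rw [← LinearMap.charpoly_toMatrix g b, ← hM, Matrix.charpoly_fin_two, Matrix.trace_fin_two,
    Matrix.det_fin_two, e00, e10, e11, ha1]
  simp only [mul_zero, sub_zero, mul_one, map_add, map_one]
  ring

variable {N p : ℕ} [NeZero N] {O : Type} [CommRing O] [IsDomain O] [IsDiscreteValuationRing O]
  [Finite (ResidueField O)]

/-- **`a_p` of an eigenform with ordinary residual representation is a unit.** -/
theorem residue_qCoeff_ne_zero (hp : p.Prime) (hp2 : p ≠ 2) (hN : ¬ p ∣ N)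
    [NeZero (Nat.lcm N 2)]
    (hgood : ∀ A : ValuationSubring Qbar, A.LiesOverPrime p → HasTameModel A (Nat.lcm N 2))
    (hpO : (p : O) ∈ maximalIdeal O) {f : CuspForm (Gamma0 N) 2}
    (hf : f.IsNormalizedEigenform) (ι : (eigenChar hf (∅ : Set ℕ)).range →+* O)
    (ρ : ResidualGaloisRep (ResidueField O))
    (hord : (GaloisRepAdic.ofResidualGaloisRep ρ).IsOrdinaryAt p)
    (hdet : (GaloisRepAdic.ofResidualGaloisRep ρ).DetIsCyclotomic p)
    (S₀ : Finset ℕ)
    (htr : ∀ l : Nat.Primes, (l : ℕ) ∉ S₀ → ∀ P : ValuationSubring Qbar, P.LiesOverPrime l →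
      ∀ φ : GalQ, P.IsFrobeniusAt φ l → LinearMap.trace (ResidueField O) ρ.V (ρ.ρ φ) =
        residue O (ι ⟨ModularFormClass.qCoeff f l, qCoeff_mem_range_eigenChar hf l⟩)) :
    residue O (ι ⟨ModularFormClass.qCoeff f p, qCoeff_mem_range_eigenChar hf p⟩) ≠ 0 := by
  classical
  have : Fact p.Prime := ⟨hp⟩
  have : NeZero p := ⟨hp.ne_zero⟩
  have : CharP (ResidueField O) p := CharP.charP_iff_prime_eq_zero hp |>.mpr (by
    rw [← map_natCast (residue O), residue_eq_zero_iff]; exact hpO)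
  let S : Finset ℕ := (S₀ ∪ N.primeFactors).erase p
  have hNS : ∀ q : ℕ, q.Prime → q ∣ N → q ∈ S := fun q hq hqN =>
    Finset.mem_erase.mpr ⟨fun h => hN (h ▸ hqN), Finset.mem_union_right _
      (Nat.mem_primeFactors.mpr ⟨hq, hqN, NeZero.ne N⟩)⟩
  have hpS : p ∉ (↑S : Set ℕ) := fun h => Finset.notMem_erase p _ (Finset.mem_coe.mp h)
  let θ := thetaOf (eigenCharTo hf ι) (dvd_refl N) hNS
  have hθ : ∀ {l : ℕ} (hl : l.Prime) (hlN : ¬ l ∣ N) (hlS : l ∉ (↑S : Set ℕ)),
      θ (CuspForm.heckeAlgebra.T hl hlN hlS) =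
        residue O (ι ⟨ModularFormClass.qCoeff f l, qCoeff_mem_range_eigenChar hf l⟩) :=
    fun {l} hl hlN hlS => (thetaOf_T (eigenCharTo hf ι) _ _ hl hlN hlS).trans
      (congrArg (residue O) (eigenCharTo_opT hf ι ⟨l, hl⟩))
  rw [← hθ hp hN hpS]
  obtain ⟨A, hA⟩ := GaloisBasics.exists_liesOverPrime hp
  obtain ⟨ζ, hζ⟩ := HasEnoughRootsOfUnity.exists_primitiveRoot Qbar p
  refine theta_T_ne_zero hp hp2 hN hA (hgood A hA) hζ ?_
    (fun q hq hqN => Finset.mem_coe.mpr (hNS q hq hqN)) S.finite_toSet hpS θ ρ ?_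
    fun σ hσ => charpoly_eq_of_isOrdinaryAt ρ hord hdet hA hζ hσ
  · exact Specialization.specializationExists N p (HeckeCommute.heckeOperatorsCommuteBar N)
      (EisensteinDescent.smulCommClass_heckeAlg (N := N))
  intro ℓ hℓ hℓN hℓS hℓp B hB φ hφ
  have hℓS₀ : ℓ ∉ S₀ := fun h =>
    hℓS (Finset.mem_coe.mpr (Finset.mem_erase.mpr ⟨hℓp, Finset.mem_union_left _ h⟩))
  rw [hθ hℓ hℓN hℓS, ← htr ⟨ℓ, hℓ⟩ hℓS₀ B hB φ hφ,
    ConductorLevel.charpoly_eq_of_finrank_two ρ.finrank_eq]
  congr 2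
  have h := hdet.2 1 φ ℓ fun μ hμ =>
    frobenius_apply_of_pow_eq_one hB hℓ
      (fun h => hℓp ((Nat.prime_dvd_prime_iff_eq hℓ hp).mp (by rwa [pow_one] at h))) hφ hμ
  rw [pow_one, CharP.cast_eq_zero, Ideal.span_singleton_eq_bot.mpr rfl, Ideal.mem_bot,
    sub_eq_zero] at h
  exact h

end Fermat.Agent.Supersingular
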