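import Fermat.Agent.Supersingular.TameModel
import Fermat.Agent.Supersingular.NotMem
import Fermat.Agent.GoodReductionS18.Model.Fibres

/-!
# The tame model of `X₀(lcm(N, 2))`

An even level prime to `p` has a tame model at a place over `p`. Consequently the eigenvalue at
`p ∤ N` of an eigenform of level `N` with ordinary residual representation is a unit.
-/

set_option autoImplicit false

noncomputable section

open AlgebraicCurve ModularCurve IsLocalRing Polynomial CongruenceSubgroup
open Fermat.Agent.GoodReduction Fermat.Agent.GoodReductionModular Fermat.Agent.GoodReductionS18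
open Fermat.Agent.GaloisBasics (Qbar GalQ)
open Fermat.Agent.HeckeEigen (eigenChar qCoeff_mem_range_eigenChar)

namespace Fermat.Agent.Supersingular

/-- **The tame model** of an even level prime to `p`. -/
theorem hasTameModel {A : ValuationSubring Qbar} {p : ℕ} (hp : p.Prime) (hA : A.LiesOverPrime p)
    (M : ℕ) [NeZero M] (h2 : 2 ∣ M) (hM : ¬ p ∣ M) : HasTameModel A M := by
  have := GaloisBasics.residueField_charP hA hp
  have : IsAlgClosed (ResidueField A) := GaloisBasics.residueField_isAlgClosed A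
  have hMk : (M : ResidueField A) ≠ 0 := by rwa [Ne, CharP.cast_eq_zero_iff _ p]
  have hh : (2 : ℕ) = 2 ∨ (2 : ℕ) = 3 := .inl rfl
  have H := gaussInput_level (K := Qbar) (π := residue A) IsLocalRing.residue_surjective hMk
  obtain ⟨g, c₀, hG⟩ := goodModel_hauptElt hh h2 hMk H (hauptFibres 2 M hh)
  refine hasTameModel_of_poleDiv (hauptElt hh h2 H) (s := hauptX 2 ℤ) ?_ (hG c₀ le_rfl)
    (transcendental_res_hauptElt hh h2 hMk H) (isSeparable_res_hauptElt hh h2 hMk H)
  rw [coe_hauptElt hh h2 H, coeffMap_hauptX]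

/-- The tame model of level `lcm(N, 2)` at an odd `p ∤ N`. -/
theorem hasTameModel_lcm {A : ValuationSubring Qbar} {p : ℕ} (hp : p.Prime) (hp2 : p ≠ 2)
    (hA : A.LiesOverPrime p) {N : ℕ} [NeZero (Nat.lcm N 2)] (hN : ¬ p ∣ N) :
    HasTameModel A (Nat.lcm N 2) :=
  hasTameModel hp hA _ (Nat.dvd_lcm_right N 2) fun h => by
    rcases hp.dvd_mul.mp (h.trans (Nat.lcm_dvd_mul N 2)) with h' | h'
    exacts [hN h', hp2 ((Nat.prime_dvd_prime_iff_eq hp Nat.prime_two).mp h')]

theorem neZero_lcm_two (N : ℕ) [NeZero N] : NeZero (Nat.lcm N 2) :=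
  ⟨Nat.lcm_ne_zero (NeZero.ne N) two_ne_zero⟩

variable {N p : ℕ} [NeZero N] {O : Type} [CommRing O] [IsDomain O] [IsDiscreteValuationRing O]
  [Finite (ResidueField O)]

/-- **`a_p` of an eigenform with ordinary residual representation at `p ∤ N` is a unit.** -/
theorem isUnit_qCoeff_of_ordinary (hp : p.Prime) (hp2 : p ≠ 2) (hN : ¬ p ∣ N)
    (hpO : (p : O) ∈ maximalIdeal O) {f : CuspForm (Gamma0 N) 2}
    (hf : f.IsNormalizedEigenform) (ι : (eigenChar hf (∅ : Set ℕ)).range →+* O)
    (ρ : ResidualGaloisRep (ResidueField O))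
    (hord : (GaloisRepAdic.ofResidualGaloisRep ρ).IsOrdinaryAt p)
    (hdet : (GaloisRepAdic.ofResidualGaloisRep ρ).DetIsCyclotomic p)
    (S₀ : Finset ℕ)
    (htr : ∀ l : Nat.Primes, (l : ℕ) ∉ S₀ → ∀ P : ValuationSubring Qbar, P.LiesOverPrime l →
      ∀ φ : GalQ, P.IsFrobeniusAt φ l → LinearMap.trace (ResidueField O) ρ.V (ρ.ρ φ) =
        residue O (ι ⟨ModularFormClass.qCoeff f l, qCoeff_mem_range_eigenChar hf l⟩)) :
    IsUnit (ι ⟨ModularFormClass.qCoeff f p, qCoeff_mem_range_eigenChar hf p⟩) := by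
  have := neZero_lcm_two N
  exact residue_ne_zero_iff_isUnit _ |>.mp (residue_qCoeff_ne_zero hp hp2 hN
    (fun A hA => hasTameModel_lcm hp hp2 hA hN) hpO hf ι ρ hord hdet S₀ htr)

end Fermat.Agent.Supersingular
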