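import Fermat.Agent.Supersingular.PoleBound
import Mathlib.FieldTheory.IsAlgClosed.Basic

/-!
# The supersingular core, abstract form

A point of order `p` of the Jacobian with trivial reduction, fixed by a group acting trivially on
the reduction and killed by an operator lifting `f ↦ (φ⁻¹ f) ^ p`, vanishes.

The class is written as `E - E₀` with `E₀` fixed with nonspecial reduction and `E` effective, hence
fixed (`smul_eq_self_of_fixed_class`). A function with divisor `p (E - E₀)` is either constant or,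
scaled to `1 + τ h`, has `τ` a unit multiple of `π₀ ^ p` by the pole bound
(`pole_bound_of_fixed`); then the operator forces the reduction of `h` to be constant
(`exists_const_of_pow_form`), a contradiction.
-/

set_option autoImplicit false

noncomputable section

open AlgebraicCurve Fermat.Agent.GoodReduction

namespace Fermat.Agent.Supersingular

variable {K k F κ : Type*} [Field K] [Field k] [Field F] [Field κ] [Algebra K F] [Algebra k κ]

theorem exists_algebraMap_of_pow [IsAlgClosed k] {p : ℕ} (hp : p.Prime) [CharP k p] {y : κ}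
    {e : k} (h : y ^ p = algebraMap k κ e) : ∃ s : k, y = algebraMap k κ s := by
  have : Fact p.Prime := ⟨hp⟩
  have : CharP κ p := charP_of_injective_algebraMap (algebraMap k κ).injective p
  obtain ⟨s, rfl⟩ := IsAlgClosed.exists_pow_nat_eq e hp.pos
  rw [map_pow] at h
  exact ⟨s, frobenius_inj κ p h⟩

/-- From `(φ⁻¹ h) ^ p = c + e g + g ^ p` one gets `h = R ^ p + e' R + c'`. -/
theorem exists_pow_form [IsAlgClosed k] {p : ℕ} (hp : p.Prime) [CharP k p]
    (φ : SemilinearAut k κ) {h g : κ} {c e : k} (he : e ≠ 0)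
    (heq : (φ⁻¹ • h) ^ p = algebraMap k κ c + algebraMap k κ e * g + g ^ p) :
    ∃ (R : κ) (e' c' : k), h = R ^ p + algebraMap k κ e' * R + algebraMap k κ c' := by
  have : Fact p.Prime := ⟨hp⟩
  have : CharP κ p := charP_of_injective_algebraMap (algebraMap k κ).injective p
  obtain ⟨c₀, rfl⟩ := IsAlgClosed.exists_pow_nat_eq c hp.pos
  obtain ⟨e₀, rfl⟩ := IsAlgClosed.exists_pow_nat_eq e hp.pos
  have he0 : algebraMap k κ e₀ ≠ 0 := by
    simpa using fun h0 : e₀ = 0 => he (by rw [h0, zero_pow hp.ne_zero])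
  set r : κ := (φ⁻¹ • h - algebraMap k κ c₀ - g) / algebraMap k κ e₀ with hr
  have hg : g = r ^ p := by
    rw [hr, div_pow, sub_pow_char, sub_pow_char, heq, map_pow, map_pow,
      eq_div_iff (pow_ne_zero _ he0)]
    ring
  have hh : h = φ • (algebraMap k κ c₀ + algebraMap k κ e₀ * r + r ^ p) := by
    rw [← hg, hr, mul_div_cancel₀ _ he0]
    conv_lhs => rw [← smul_inv_smul φ h]
    congr 1
    ring
  refine ⟨φ • r, SemilinearAut.baseAut φ e₀, SemilinearAut.baseAut φ c₀, ?_⟩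
  rw [hh, smul_add, smul_add, smul_mul', smul_pow', SemilinearAut.smul_algebraMap,
    SemilinearAut.smul_algebraMap]
  ring

variable {A : ValuationSubring K} {π : A →+* k} {red : Reduction F κ A π}

theorem mem_of_pow_eq {p : ℕ} {G x : red.V} {γ : K} (hx : red.res x = 1)
    (h : (G : F) ^ p = algebraMap K F γ * (x : F)) :
    ∃ hγ : γ ∈ A, red.res G ^ p = algebraMap k κ (π ⟨γ, hγ⟩) := by
  have hγ : γ ∈ A := by
    by_contra hγ
    obtain ⟨μ, hμ⟩ | ⟨μ, hμ0, hμ⟩ := exists_mul_or (red := red) γ (one_ne_zero (α := K))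
    · exact hγ (by rw [hμ, mul_one]; exact μ.2)
    have hxe : x = red.algA μ * G ^ p := Subtype.ext (by
      show (x : F) = algebraMap K F μ * (G : F) ^ p
      rw [h, ← mul_assoc, ← map_mul, ← hμ, map_one, one_mul])
    rw [hxe, map_mul, red.res_algA, hμ0, map_zero, zero_mul] at hx
    exact zero_ne_one hx
  refine ⟨hγ, ?_⟩
  rw [← map_pow, show G ^ p = red.algA ⟨γ, hγ⟩ * x from Subtype.ext h, map_mul, red.res_algA, hx,
    mul_one]

namespace GoodModel

variable {g : ℕ} {c : ℤ} {H : Divisor K F} {Hb : Divisor k κ}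
variable (G : GoodModel red g c H Hb)

include G

/-- If `1 + π₀ ^ p x` is a scalar times a `p`-th power then `res x = c + ε g + g ^ p`. -/
theorem exists_form_of_pow [IsAlgClosed k] {p : ℕ} (hp : p.Prime) [CharP k p] {π₀ ε : A}
    (hπ₀ : π π₀ = 0) (hπ₀0 : (π₀ : K) ≠ 0) (hpε : (p : K) = ε * (π₀ : K) ^ (p - 1))
    {x : red.V} {b : K} {Y : F}
    (h : ((1 + red.algA (π₀ ^ p) * x : red.V) : F) = algebraMap K F b * Y ^ p) :
    ∃ (gb : κ) (cb : k), red.res x
      = algebraMap k κ cb + algebraMap k κ (π ε) * gb + gb ^ p := by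
  set N : red.V := 1 + red.algA (π₀ ^ p) * x with hN
  have hNres : red.res N = 1 := by
    rw [hN, map_add, map_one, map_mul, red.res_algA, map_pow, hπ₀, zero_pow hp.ne_zero, map_zero,
      zero_mul, add_zero]
  have hN0 : (N : F) ≠ 0 := red.coe_ne_zero (by rw [hNres]; exact one_ne_zero)
  rw [h] at hN0
  have hb : b ≠ 0 := fun h0 => hN0 (by rw [h0, map_zero, zero_mul])
  have hY : Y ≠ 0 := fun h0 => hN0 (by rw [h0, zero_pow hp.ne_zero, mul_zero])
  obtain ⟨e, he, Y₁, hY₁, hY₁0⟩ := red.exists_smul_res_ne_zero hY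
  have hY₁p : (Y₁ : F) ^ p = algebraMap K F (e ^ p / b) * (N : F) := by
    rw [hY₁, h, Algebra.smul_def, mul_pow, ← mul_assoc, ← map_mul, div_mul_cancel₀ _ hb, map_pow]
  obtain ⟨hγ₁, hres₁⟩ := mem_of_pow_eq hNres hY₁p
  obtain ⟨s, hs⟩ := exists_algebraMap_of_pow hp hres₁
  have hs0 : s ≠ 0 := fun h0 => hY₁0 (by rw [hs, h0, map_zero])
  obtain ⟨l, hl⟩ := red.surjective s⁻¹
  set Y₂ : red.V := red.algA l * Y₁ with hY₂
  have hY₂res : red.res Y₂ = 1 := by
    rw [hY₂, map_mul, red.res_algA, hl, hs, ← map_mul, inv_mul_cancel₀ hs0, map_one]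
  have hY₂p : (Y₂ : F) ^ p = algebraMap K F ((l : K) ^ p * (e ^ p / b)) * (N : F) := by
    show (algebraMap K F l * (Y₁ : F)) ^ p = _
    rw [mul_pow, hY₁p, map_mul, map_pow]
    ring
  have hNF : (N : F) = 1 + algebraMap K F (π₀ : K) ^ p * (x : F) := by
    rw [hN]
    show 1 + algebraMap K F ((π₀ ^ p : A) : K) * (x : F) = _
    rw [SubmonoidClass.coe_pow, map_pow]
  have hπF : algebraMap K F (π₀ : K) ^ p ≠ 0 := pow_ne_zero _ (by simpa using hπ₀0)
  by_cases hconst : ∃ a : K, (Y₂ : F) = algebraMap K F a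
  · obtain ⟨a, ha⟩ := hconst
    have hxc : (x : F) = algebraMap K F
        ((a ^ p * ((l : K) ^ p * (e ^ p / b))⁻¹ - 1) / (π₀ : K) ^ p) := by
      have hl0 : (l : K) ^ p * (e ^ p / b) ≠ 0 := by
        refine fun h0 => red.coe_ne_zero (x := Y₂) (by rw [hY₂res]; exact one_ne_zero) ?_
        rw [h0, map_zero, zero_mul] at hY₂p
        exact eq_zero_of_pow_eq_zero hY₂p
      have := hY₂p
      rw [ha, hNF, ← map_pow] at this
      rw [map_div₀, map_sub, map_mul, map_inv₀, map_one, this, map_pow, eq_div_iff hπF]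
      rw [mul_right_comm, mul_inv_cancel₀ ((map_ne_zero _).mpr hl0)]
      ring
    have hmem := red.mem_of_algebraMap_mem (hxc ▸ x.2)
    refine ⟨0, π ⟨_, hmem⟩, ?_⟩
    rw [show x = red.algA ⟨_, hmem⟩ from Subtype.ext hxc, red.res_algA]
    simp [zero_pow hp.ne_zero]
  push Not at hconst
  obtain ⟨f, y, τ, b', hb', hfb, hτ, hfy, -, hync⟩ :=
    G.scaled_decomposition hY₂res hconst
  have hfp : (f : F) ^ p
      = algebraMap K F (b' ^ p * ((l : K) ^ p * (e ^ p / b))) * (N : F) := by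
    rw [hfb, mul_pow, hY₂p]
    simp only [map_mul, map_pow]
    ring
  obtain ⟨hγ, hfres⟩ := mem_of_pow_eq hNres hfp
  set γ : A := ⟨_, hγ⟩ with hγdef
  have hfV : f = 1 + red.algA τ * y := Subtype.ext hfy
  have hfpV : f ^ p = red.algA γ * N := Subtype.ext hfp
  obtain ⟨r, hr⟩ := exists_one_add_pow_prime hp (red.algA τ * y)
  set y' : red.V := y * (1 + red.algA τ * y * r) with hy'
  have heq : red.algA γ * N = 1 + red.algA (τ ^ p) * y ^ p + red.algA ((p : A) * τ) * y' := by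
    rw [← hfpV, hfV, hr, hy', map_pow, map_mul, map_natCast]
    ring
  have hpA : (p : A) = ε * π₀ ^ (p - 1) := Subtype.ext (by push_cast; exact hpε)
  -- dividing by the dominant power
  have hdiv : ∀ (d : A) (z : red.V), (d : K) ≠ 0 →
      red.algA γ - 1 = red.algA d * z → ∃ β : A, red.res z = algebraMap k κ (π β) := by
    intro d z hd hz
    have hzF : (z : F) = algebraMap K F (((γ : K) - 1) / d) := by
      have h1 : algebraMap K F (γ : K) - 1 = algebraMap K F d * (z : F) :=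
        congrArg Subtype.val hz
      rw [map_div₀, map_sub, map_one, h1, mul_div_cancel_left₀ _ (by simpa using hd)]
    have hmem := red.mem_of_algebraMap_mem (hzF ▸ z.2)
    exact ⟨⟨_, hmem⟩, by rw [show z = red.algA ⟨_, hmem⟩ from Subtype.ext hzF, red.res_algA]⟩
  rcases exists_mul_or (red := red) (τ : K) hπ₀0 with ⟨μ, hμ⟩ | ⟨μ, hμ0, hμ⟩
  · have hτμ : τ = μ * π₀ := Subtype.ext hμ
    have hτπ : π τ = 0 := by rw [hτμ, map_mul, hπ₀, mul_zero]
    have hγ1 : algebraMap k κ (π γ) = 1 := by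
      rw [← hfres, hfV, map_add, map_one, map_mul, red.res_algA, hτπ, map_zero, zero_mul,
        add_zero, one_pow]
    have hpτ : (p : A) * τ = ε * μ * π₀ ^ p := by
      rw [hpA, hτμ]
      conv_rhs => rw [← pow_sub_one_mul hp.ne_zero]
      ring
    obtain ⟨β, hβ⟩ := hdiv (π₀ ^ p)
      (red.algA (μ ^ p) * y ^ p + red.algA (ε * μ) * y' - red.algA γ * x)
      (by push_cast; exact pow_ne_zero _ hπ₀0) (by
        rw [hpτ, hN, hτμ, mul_pow] at heq
        simp only [map_mul] at heq ⊢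
        linear_combination heq)
    refine ⟨algebraMap k κ (π μ) * red.res y, -π β, ?_⟩
    simp only [map_sub, map_add, map_mul, map_pow, red.res_algA, hγ1, one_mul, hy', hτπ, map_one,
      map_zero, zero_mul, add_zero, mul_one] at hβ
    rw [map_neg]
    linear_combination -hβ
  · exfalso
    have hπ₀μ : π₀ = μ * τ := Subtype.ext hμ
    have hpτ : (p : A) * τ = ε * μ ^ (p - 1) * τ ^ p := by
      rw [hpA, hπ₀μ, mul_pow]
      conv_rhs => rw [← pow_sub_one_mul hp.ne_zero (a := τ)]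
      ring
    obtain ⟨β, hβ⟩ := hdiv (τ ^ p)
      (y ^ p + red.algA (ε * μ ^ (p - 1)) * y' - red.algA (γ * μ ^ p) * x)
      (by push_cast; exact pow_ne_zero _ hτ) (by
        rw [hpτ, hN, hπ₀μ, mul_pow] at heq
        simp only [map_mul] at heq ⊢
        linear_combination heq)
    have hμp : π μ ^ (p - 1) = 0 := by
      rw [hμ0, zero_pow (by have := hp.two_le; omega)]
    simp only [map_sub, map_add, map_mul, map_pow, red.res_algA, hμ0, map_zero,
      zero_pow hp.ne_zero, zero_pow (show p - 1 ≠ 0 by have := hp.two_le; omega), mul_zero,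
      zero_mul, add_zero, sub_zero] at hβ
    obtain ⟨s, hs⟩ := exists_algebraMap_of_pow hp hβ
    exact hync s hs

/-- The hypotheses on the group fixing the point. -/
structure IsInertiaLike (Γ : Set (SemilinearAut K F)) (π₀ : A) : Prop where
  smul_polarisation : ∀ s ∈ Γ, s • H = H
  smul_res : ∀ s ∈ Γ, ∀ x : red.V, ∃ h : s • (x : F) ∈ red.V, red.res ⟨s • (x : F), h⟩ = red.res x
  value : ∀ δ : A, π δ = 0 → (∀ s ∈ Γ, SemilinearAut.baseAut s (δ : K) = δ) →
    ∃ ν : A, (δ : K) = ν * π₀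
  lift : ∃ S : Finset (Place k κ), ∀ Q ∉ S, ∃ a : red.V, (∀ s ∈ Γ, s • (a : F) = a) ∧
    Q.ord (red.res a) = 1 ∧ ∀ P, G.placeMap P = Q → 0 ≤ P.ord (a : F)

/-- A divisor which is nonnegative on a fibre and of total one there is a single point of it. -/
theorem exists_fibre_eq_single {X : Divisor K F} {Q : Place k κ}
    (hX : ∀ P, G.placeMap P = Q → 0 ≤ X P) (hsum : G.divMap X Q = 1) :
    ∃ P₁, G.placeMap P₁ = Q ∧
      ∀ P, G.placeMap P = Q → X P = Finsupp.single P₁ (1 : ℤ) P := by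
  classical
  have hne := hsum
  rw [G.divMap_apply_eq_sum] at hne
  obtain ⟨P₁, -, hP⟩ := Finset.exists_ne_zero_of_sum_ne_zero (hne ▸ one_ne_zero)
  split at hP
  · rename_i hP₁
    have h1 := hX P₁ hP₁
    exact ⟨P₁, hP₁, fun P hPQ => G.fibre_eq (fun P' hP' => hX P' (hP'.trans hP₁))
      (hP₁ ▸ hsum) (by omega) P (hPQ.trans hP₁.symm)⟩
  · exact absurd rfl hP

/-- The inertia-like group preserves every fibre of the reduction. -/
theorem IsInertiaLike.placeMap_smul {Γ : Set (SemilinearAut K F)} {π₀ : A}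
    (hΓ : IsInertiaLike G Γ π₀) {s : SemilinearAut K F} (hs : s ∈ Γ) (P : Place K F) :
    G.placeMap (s • P) = G.placeMap P := by
  rw [G.placeMap_smul s 1 (hΓ.smul_polarisation s hs) (one_smul _ _) (fun y => by
    obtain ⟨h, hh⟩ := hΓ.smul_res s hs y
    exact ⟨h, by rw [hh, one_smul]⟩) P, one_smul]

/-- In a fibre on which a divisor is the single point `P₁`, a group element preserving the fibre
and the divisor fixes `P₁`. -/
theorem smul_eq_self_of_fibre {Γ : Set (SemilinearAut K F)} {π₀ : A}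
    (hΓ : IsInertiaLike G Γ π₀) {s : SemilinearAut K F} (hs : s ∈ Γ) {X : Divisor K F}
    (hX : ∀ P, X (s • P) = X P) {Q : Place k κ} {P₁ : Place K F} (hP₁ : G.placeMap P₁ = Q)
    (hfib : ∀ P, G.placeMap P = Q → X P = Finsupp.single P₁ (1 : ℤ) P) : s • P₁ = P₁ := by
  by_contra hne
  have h1 := hfib (s • P₁) ((hΓ.placeMap_smul G hs P₁).trans hP₁)
  rw [hX, hfib P₁ hP₁] at h1
  simp [Finsupp.single_eq_of_ne hne] at h1

/-- Above a point with a fixed uniformiser `a` lies a fixed place, the only zero of `a` there. -/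
theorem exists_fixed_lift {Γ : Set (SemilinearAut K F)} {π₀ : A}
    (hΓ : IsInertiaLike G Γ π₀) {Q : Place k κ} {a : red.V}
    (haΓ : ∀ s ∈ Γ, s • (a : F) = a) (haQ : Q.ord (red.res a) = 1)
    (hareg : ∀ P, G.placeMap P = Q → 0 ≤ P.ord (a : F)) :
    ∃ P₀, G.placeMap P₀ = Q ∧ (∀ s ∈ Γ, s • P₀ = P₀) ∧
      ∀ P, G.placeMap P = Q → P.ord (a : F) = Finsupp.single P₀ (1 : ℤ) P := by
  have hane : red.res a ≠ 0 := fun h => by simp [h] at haQ
  obtain ⟨P₀, hP₀, hfib⟩ := exists_fibre_eq_single G (X := G.riemann.div (a : F)) (Q := Q)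
    (fun P hP => by rw [G.riemann.div_apply]; exact hareg P hP)
    (by rw [G.divMap_div hane, G.riemann'.div_apply, haQ])
  refine ⟨P₀, hP₀, fun s hs => smul_eq_self_of_fibre G hΓ hs (fun P => ?_) hP₀ hfib,
    fun P hP => by rw [← G.riemann.div_apply]; exact hfib P hP⟩
  rw [G.riemann.div_apply, G.riemann.div_apply]
  conv_lhs => rw [← haΓ s hs, SemilinearAut.ord_smul]

/-- A class with trivial reduction is represented by `E - E₀` with `E` effective and reducing to
the same divisor as `E₀`, when `E₀` has degree `g` and nonspecial reduction. -/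
theorem exists_effective_representative {D : Divisor.degZero (K := K) (F := F)}
    (h0 : G.picMap (Pic0.mk D) = 0) {E₀ : Divisor K F} (hdeg : Divisor.degree E₀ = g)
    (hEb0 : 0 ≤ G.divMap E₀) (hT : Module.finrank k (LSpace (G.divMap E₀)) = 1) :
    ∃ (E : Divisor K F) (D' : Divisor.degZero (K := K) (F := F)), 0 ≤ E ∧
      G.divMap E = G.divMap E₀ ∧ (D' : Divisor K F) = E - E₀ ∧ Pic0.mk D' = Pic0.mk D := by
  obtain ⟨gb, hgb, hgbD⟩ : (Divisor.IsPrincipal (G.divMap (D : Divisor K F))) := by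
    rw [G.picMap_mk] at h0
    exact AddSubgroup.mem_addSubgroupOf.mp ((QuotientAddGroup.eq_zero_iff _).mp h0)
  obtain ⟨f₀, hf₀, hE0⟩ := G.riemann.exists_effective (D := (D : Divisor K F))
    (Divisor.mem_degZero.mp D.2) hdeg
  set E : Divisor K F := (D : Divisor K F) + E₀ + G.riemann.div f₀ with hEdef
  obtain ⟨yb, hyb, hybD⟩ := G.divMap_mem_principal (D := G.riemann.div f₀)
    ⟨f₀, hf₀, fun v => G.riemann.div_apply f₀ v⟩
  have hmapE' : G.divMap E = G.divMap E₀ + G.riemann'.div (gb * yb) := by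
    rw [hEdef, map_add, map_add, G.riemann'.div_mul hgb hyb,
      G.riemann'.div_eq hgbD, G.riemann'.div_eq hybD]
    abel
  have hmapE : G.divMap E = G.divMap E₀ := by
    have hmem : gb * yb ∈ LSpace (G.divMap E₀) := by
      rw [mem_LSpace (mul_ne_zero hgb hyb)]
      intro Q
      have := G.divMap_apply_nonneg (X := E) (Q := Q) fun P _ => hE0 P
      rwa [hmapE', Finsupp.add_apply, G.riemann'.div_apply] at this
    obtain ⟨t, ht⟩ := RiemannData.eq_const_of_finrank hEb0 hT hmem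
    rw [hmapE', add_eq_left]
    ext Q
    rw [G.riemann'.div_apply, ← ht, ord_algebraMap_eq_zero, Finsupp.coe_zero, Pi.zero_apply]
  have hEE : E - E₀ = (D : Divisor K F) + G.riemann.div f₀ := by rw [hEdef]; abel
  refine ⟨E, ⟨E - E₀, by
    rw [Divisor.mem_degZero, hEE, map_add, Divisor.mem_degZero.mp D.2, G.riemann.degree_div,
      add_zero]⟩, hE0, hmapE, rfl, ?_⟩
  refine QuotientAddGroup.eq.mpr (AddSubgroup.mem_addSubgroupOf.mpr ⟨f₀⁻¹, inv_ne_zero hf₀,
    fun v => ?_⟩)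
  rw [AddSubgroup.coe_add, AddSubgroup.coe_neg, v.ord_inv, Finsupp.add_apply, Finsupp.neg_apply]
  show -(E - E₀) v + _ = _
  rw [hEE, Finsupp.add_apply, G.riemann.div_apply]
  ring

/-- An effective divisor with nonspecial reduction is nonspecial. -/
theorem finrank_LSpace_eq_one {E : Divisor K F} (hE : 0 ≤ E)
    (hT : Module.finrank k (LSpace (G.divMap E)) = 1) : Module.finrank K (LSpace E) = 1 := by
  have := G.riemann.finite E
  have := G.riemann'.finite (G.divMap E)
  have hle : red.resSpace (LSpace E) ≤ LSpace (G.divMap E) := by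
    refine Submodule.span_le.mpr ?_
    rintro _ ⟨z, hz, rfl⟩
    exact G.res_mem_LSpace hz
  have h1 := Submodule.finrank_mono hle
  rw [red.finrank_resSpace, hT] at h1
  have h2 : (1 : F) ∈ LSpace E :=
    (mem_LSpace one_ne_zero).mpr fun v => by simpa using hE v
  have hne : LSpace E ≠ ⊥ := fun hb => by
    rw [hb, Submodule.mem_bot] at h2
    exact one_ne_zero h2
  have := Submodule.one_le_finrank_iff.mpr hne
  omega

omit G in
/-- If the class of `E - E₀` and the divisor `E₀` are fixed and `E` is effective and nonspecial,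
then `E` is fixed. -/
theorem smul_eq_self_of_fixed_class {E E₀ : Divisor K F} (hE : 0 ≤ E)
    (hE1 : Module.finrank K (LSpace E) = 1) {D' : Divisor.degZero (K := K) (F := F)}
    (hD' : (D' : Divisor K F) = E - E₀) {s : SemilinearAut K F}
    (hs : s • Pic0.mk D' = Pic0.mk D') (hsE₀ : s • E₀ = E₀) : s • E = E := by
  rw [SemilinearAut.pic0_smul_mk, eq_comm] at hs
  obtain ⟨u, hu, huD⟩ := AddSubgroup.mem_addSubgroupOf.mp (QuotientAddGroup.eq.mp hs)
  have hsE : ∀ v, (s • E) v = E v + v.ord u := fun v => by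
    have hv := huD v
    rw [AddSubgroup.coe_add, AddSubgroup.coe_neg, Finsupp.add_apply, Finsupp.neg_apply] at hv
    change -(D' : Divisor K F) v + (s • (D' : Divisor K F)) v = _ at hv
    rw [hD', smul_sub, hsE₀, Finsupp.sub_apply, Finsupp.sub_apply] at hv
    omega
  have humem : u ∈ LSpace E := (mem_LSpace hu).mpr fun v => by
    rw [← hsE, SemilinearAut.divisor_smul_apply]; exact hE _
  obtain ⟨t, rfl⟩ := RiemannData.eq_const_of_finrank hE hE1 humem
  ext v
  rw [hsE, ord_algebraMap_eq_zero, add_zero]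

/-- A function whose divisor reduces to zero has a scalar multiple reducing to `1`. -/
theorem exists_smul_res_eq_one {f : F} (hf : f ≠ 0) (hdiv : G.divMap (G.riemann.div f) = 0) :
    ∃ f₃ : red.V, red.res f₃ = 1 ∧ ∀ P : Place K F, P.ord (f₃ : F) = P.ord f := by
  obtain ⟨b, hb, f₂, hf₂F, hf₂⟩ := red.exists_smul_res_ne_zero hf
  have hord : ∀ P : Place K F, P.ord (f₂ : F) = P.ord f := fun P => by
    rw [hf₂F, Algebra.smul_def, P.ord_mul (by simpa using hb) hf, ord_algebraMap_eq_zero, zero_add]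
  obtain ⟨e, he⟩ : ∃ e : k, algebraMap k κ e = red.res f₂ := by
    refine G.riemann'.mem_LSpace_zero ((mem_LSpace hf₂).mpr fun Q => ?_)
    have hd : G.riemann.div (f₂ : F) = G.riemann.div f := Finsupp.ext fun P => by
      rw [G.riemann.div_apply, G.riemann.div_apply, hord]
    rw [← G.riemann'.div_apply, ← G.divMap_div hf₂, hd, hdiv]
    simp
  obtain ⟨e', he'⟩ := red.surjective e⁻¹
  have he0 : e ≠ 0 := fun h => hf₂ (by rw [← he, h, map_zero])
  have he'0 : (e' : K) ≠ 0 := by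
    intro h
    rw [show e' = 0 from Subtype.ext h, map_zero] at he'
    exact inv_ne_zero he0 he'.symm
  refine ⟨red.algA e' * f₂,
    by rw [map_mul, red.res_algA, he', ← he, ← map_mul, inv_mul_cancel₀ he0, map_one], fun P => ?_⟩
  show P.ord (algebraMap K F e' * (f₂ : F)) = _
  rw [P.ord_mul (by simpa using he'0) (red.coe_ne_zero hf₂), ord_algebraMap_eq_zero, zero_add, hord]

omit G in
/-- The value at a fixed place of a fixed function which takes it simply is fixed. -/
theorem baseAut_eq_of_simple_zero {s : SemilinearAut K F} {P : Place K F} (hsP : s • P = P)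
    {a : F} (hsa : s • a = a) {δ : K} (h1 : P.ord (a - algebraMap K F δ) = 1) :
    SemilinearAut.baseAut s δ = δ := by
  by_contra hne
  have hsa' : s • (a - algebraMap K F δ) = a - algebraMap K F (SemilinearAut.baseAut s δ) := by
    rw [smul_sub, hsa, SemilinearAut.smul_algebraMap]
  have h2 : P.ord (s • (a - algebraMap K F δ)) = 1 := by
    conv_lhs => rw [← hsP]
    rw [SemilinearAut.ord_smul, h1]
  have hd : a - algebraMap K F δ - s • (a - algebraMap K F δ)
      = algebraMap K F (SemilinearAut.baseAut s δ - δ) := by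
    rw [hsa', map_sub]
    ring
  have h3 := le_ord_sub P (Or.inr h1.ge) (Or.inr h2.ge)
    (by rw [hd]; simpa [sub_eq_zero] using hne)
  rw [hd, ord_algebraMap_eq_zero] at h3
  omega

/-- The pole bound at a point `Q` over which the fixed divisors `E` and `E₀` both have a single
point, `E₀` that of a fixed uniformiser `a`. -/
theorem pole_bound_of_fixed {p : ℕ} (hp : p.Prime) {π₀ ε : A} (hπ₀ : π π₀ = 0)
    (hπ₀0 : (π₀ : K) ≠ 0) (hε : π ε ≠ 0) (hpε : (p : K) = ε * (π₀ : K) ^ (p - 1))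
    {Γ : Set (SemilinearAut K F)} (hΓ : IsInertiaLike G Γ π₀) {E E₀ : Divisor K F} (hE : 0 ≤ E)
    (hEfix : ∀ s ∈ Γ, s • E = E) {Q : Place k κ} (hEQ : G.divMap E Q = 1) {a : red.V}
    (haΓ : ∀ s ∈ Γ, s • (a : F) = a) (haQ : Q.ord (red.res a) = 1) {P₀ : Place K F}
    (haP : ∀ P, G.placeMap P = Q → P.ord (a : F) = Finsupp.single P₀ (1 : ℤ) P)
    (hE₀ : ∀ P, G.placeMap P = Q → E₀ P = Finsupp.single P₀ (1 : ℤ) P)
    {f h : red.V} {τ : A} (hf0 : (f : F) ≠ 0)
    (hdiv : ∀ P : Place K F, P.ord (f : F) = (p : ℤ) * (E P - E₀ P))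
    (hfh : f = 1 + red.algA τ * h) (hτ : (τ : K) ≠ 0) :
    -1 ≤ Q.ord (red.res h) ∨ ∃ μ : A, π μ ≠ 0 ∧ (τ : K) = μ * (π₀ : K) ^ p := by
  classical
  obtain ⟨P₁, hP₁, hEfib⟩ := exists_fibre_eq_single G (fun P _ => hE P) hEQ
  obtain ⟨δ, hδ0, hδres, hδP⟩ := exists_value_of_uniformiser G haQ
    (fun P hP => by rw [haP P hP, Finsupp.single_apply]; split <;> norm_num) hP₁
  have hδfix : ∀ s ∈ Γ, SemilinearAut.baseAut s (δ : K) = δ := fun s hs => by
    refine baseAut_eq_of_simple_zero (smul_eq_self_of_fibre G hΓ hs (fun P => ?_) hP₁ hEfib)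
      (haΓ s hs) (?_ : P₁.ord ((a : F) - algebraMap K F (δ : K)) = 1)
    · conv_lhs => rw [← hEfix s hs, SemilinearAut.divisor_smul_apply_smul]
    · exact (hδP P₁ hP₁).trans Finsupp.single_eq_same
  obtain ⟨ν, hν⟩ := hΓ.value δ hδ0 hδfix
  exact pole_bound G hp hπ₀ hπ₀0 hε hpε hE₀ hEfib haQ haP hδres hδP hν hf0 hdiv hfh hτ

omit G in
/-- An element of the form `R ^ p + e R + c` with poles bounded by `p` times a nonspecial effective
divisor is constant. -/
theorem exists_const_of_pow_form {p : ℕ} (hp : p.Prime) {Eb : Divisor k κ} (hEb0 : 0 ≤ Eb)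
    (hT : Module.finrank k (LSpace Eb) = 1) {y R : κ} {e c : k} (hy : y ≠ 0)
    (hbound : ∀ v : Place k κ, 0 ≤ (p : ℤ) * Eb v + v.ord y)
    (hyR : y = R ^ p + algebraMap k κ e * R + algebraMap k κ c) :
    ∃ t : k, y = algebraMap k κ t := by
  suffices hR : ∃ t : k, R = algebraMap k κ t by
    obtain ⟨t, rfl⟩ := hR
    exact ⟨t ^ p + e * t + c, by rw [hyR, map_add, map_add, map_pow, map_mul]⟩
  rcases eq_or_ne R 0 with hR0 | hR0
  · exact ⟨0, by rw [hR0, map_zero]⟩
  suffices hmem : R ∈ LSpace Eb by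
    obtain ⟨t, ht⟩ := RiemannData.eq_const_of_finrank hEb0 hT hmem
    exact ⟨t, ht.symm⟩
  rw [mem_LSpace hR0]
  intro v
  have hpos : (0 : ℤ) ≤ Eb v := hEb0 v
  rcases le_or_gt 0 (v.ord R) with h1 | h1
  · omega
  have hb1 := hbound v
  have h2 : v.ord y = p * v.ord R := by
    have e1 : v.ord (R ^ p) = p * v.ord R := ord_pow' v R p
    have hple : (p : ℤ) * v.ord R ≤ v.ord R - 1 := by
      have : (2 : ℤ) ≤ p := by exact_mod_cast hp.two_le
      nlinarith
    set rest : κ := algebraMap k κ e * R + algebraMap k κ c with hrest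
    have hrest' : rest = 0 ∨ v.ord R ≤ v.ord rest := by
      by_cases hr0 : rest = 0
      · exact Or.inl hr0
      refine Or.inr (le_ord_add v ?_ (Or.inr (by rw [ord_algebraMap_eq_zero]; omega)) hr0)
      rcases eq_or_ne e 0 with he | he
      · exact Or.inl (by simp [he])
      · exact Or.inr (by rw [v.ord_mul (by simpa using he) hR0, ord_algebraMap_eq_zero]; omega)
    have hsum : y = R ^ p + rest := by rw [hyR, hrest]; ring
    rcases hrest' with hr0 | hr0
    · rw [hsum, hr0, add_zero, e1]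
    have hge : (p : ℤ) * v.ord R ≤ v.ord (R ^ p + rest) :=
      le_ord_add v (Or.inr e1.ge) (Or.inr (by omega)) (hsum ▸ hy)
    by_contra hne
    rw [hsum] at hne
    have h5 := le_ord_sub v (n := (p : ℤ) * v.ord R + 1) (f := R ^ p + rest) (f' := rest)
      (Or.inr (by omega)) (Or.inr (by omega))
      (by rw [add_sub_cancel_right]; exact pow_ne_zero _ hR0)
    rw [add_sub_cancel_right, e1] at h5
    omega
  rw [h2, ← mul_add] at hb1
  exact nonneg_of_mul_nonneg_right hb1 (by exact_mod_cast hp.pos)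

/-- There is a fixed effective divisor of degree `g` with nonspecial reduction such that every
point of its reduction has multiplicity one and carries a fixed uniformiser whose only zero above
it is the point of the divisor. -/
theorem exists_fixed_nonspecial {Γ : Set (SemilinearAut K F)} {π₀ : A}
    (hΓ : IsInertiaLike G Γ π₀) :
    ∃ E₀ : Divisor K F, 0 ≤ E₀ ∧ Divisor.degree E₀ = g ∧ (∀ s ∈ Γ, s • E₀ = E₀) ∧
      0 ≤ G.divMap E₀ ∧ Module.finrank k (LSpace (G.divMap E₀)) = 1 ∧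
      ∀ Q, G.divMap E₀ Q ≠ 0 → G.divMap E₀ Q = 1 ∧ ∃ (a : red.V) (P₀ : Place K F),
        (∀ s ∈ Γ, s • (a : F) = a) ∧ Q.ord (red.res a) = 1 ∧
        (∀ P, G.placeMap P = Q → P.ord (a : F) = Finsupp.single P₀ (1 : ℤ) P) ∧
        ∀ P, G.placeMap P = Q → E₀ P = Finsupp.single P₀ (1 : ℤ) P := by
  classical
  obtain ⟨S, hS⟩ := hΓ.lift
  obtain ⟨T, hTc, hTS, hT⟩ := G.riemann'.exists_nonspecial S
  have hlift : ∀ Q : T, ∃ (a : red.V) (P₀ : Place K F), G.placeMap P₀ = Q.1 ∧
      (∀ s ∈ Γ, s • (a : F) = a) ∧ Q.1.ord (red.res a) = 1 ∧ (∀ s ∈ Γ, s • P₀ = P₀) ∧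
      ∀ P, G.placeMap P = Q.1 → P.ord (a : F) = Finsupp.single P₀ (1 : ℤ) P := fun Q => by
    obtain ⟨a, haΓ, haQ, hareg⟩ := hS Q.1 (Finset.disjoint_left.mp hTS Q.2)
    obtain ⟨P₀, hP₀Q, hfix₀, hord⟩ := exists_fixed_lift G hΓ haΓ haQ hareg
    exact ⟨a, P₀, hP₀Q, haΓ, haQ, hfix₀, hord⟩
  choose a P₀ hP₀Q haΓ haQ hP₀fix hord using hlift
  set E₀ : Divisor K F := ∑ Q ∈ T.attach, Finsupp.single (P₀ Q) (1 : ℤ) with hE₀
  have hmap : G.divMap E₀ = ∑ Q ∈ T, Finsupp.single Q (1 : ℤ) := by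
    rw [hE₀, map_sum, ← Finset.sum_attach T]
    exact Finset.sum_congr rfl fun Q _ => by rw [G.divMap_single, hP₀Q]
  have hmapQ : ∀ Q, G.divMap E₀ Q = if Q ∈ T then 1 else 0 := fun Q => by
    rw [hmap, Finsupp.finsetSum_apply]
    simp [Finsupp.single_apply]
  have hE₀0 : 0 ≤ E₀ := Finset.sum_nonneg fun Q _ => by simp
  refine ⟨E₀, hE₀0, ?_, fun s hs => ?_, fun Q => ?_, hmap ▸ hT, fun Q hne => ?_⟩
  · rw [hE₀, map_sum]
    simp only [G.riemann.degree_single, Finset.sum_const, nsmul_eq_mul, mul_one, Finset.card_attach,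
      hTc]
  · rw [hE₀, Finset.smul_sum]
    exact Finset.sum_congr rfl fun Q _ => by rw [SemilinearAut.smul_single, hP₀fix Q s hs]
  · rw [hmapQ, Finsupp.coe_zero, Pi.zero_apply]
    split_ifs <;> norm_num
  · obtain hQ : Q ∈ T := by
      by_contra hQ
      exact hne (by rw [hmapQ, if_neg hQ])
    have hQ1 : G.divMap E₀ Q = 1 := by rw [hmapQ, if_pos hQ]
    refine ⟨hQ1, a ⟨Q, hQ⟩, P₀ ⟨Q, hQ⟩, haΓ _, haQ ⟨Q, hQ⟩, hord ⟨Q, hQ⟩, fun P hP => ?_⟩
    have hlift1 : 1 ≤ E₀ (P₀ ⟨Q, hQ⟩) := by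
      rw [hE₀, Finsupp.finsetSum_apply]
      refine le_trans (le_of_eq ?_)
        (Finset.single_le_sum (fun w _ => ?_) (Finset.mem_attach T ⟨Q, hQ⟩))
      · simp
      · rw [Finsupp.single_apply]; split <;> norm_num
    exact G.fibre_eq (fun P' _ => hE₀0 P') (by rw [hP₀Q]; exact hQ1) hlift1 P
      (hP.trans (hP₀Q ⟨Q, hQ⟩).symm)

/-- **The core.** A point of order dividing `p` with trivial reduction, fixed by an inertia-like
group and killed by an operator lifting `f ↦ (φ⁻¹ f) ^ p`, vanishes. -/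
theorem supersingular_core [IsAlgClosed k] {p : ℕ} (hp : p.Prime) [CharP k p] {π₀ ε : A}
    (hπ₀ : π π₀ = 0) (hπ₀0 : (π₀ : K) ≠ 0) (hε : π ε ≠ 0)
    (hpε : (p : K) = ε * (π₀ : K) ^ (p - 1)) {Γ : Set (SemilinearAut K F)}
    (hΓ : IsInertiaLike G Γ π₀) (φ : SemilinearAut k κ) (Nrm : F → F)
    (hNrm : ∀ h : red.V, ∃ x : red.V,
      Nrm ((1 + red.algA (π₀ ^ p) * h : red.V) : F)
        = ((1 + red.algA (π₀ ^ p) * x : red.V) : F) ∧
      red.res x = (φ⁻¹ • red.res h) ^ p)
    {x : Pic0 K F}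
    (hTx : ∀ (f : F) (D : Divisor.degZero (K := K) (F := F)), f ≠ 0 → Pic0.mk D = x →
      (∀ v : Place K F, v.ord f = (p : ℤ) * (D : Divisor K F) v) →
      ∃ (b : K) (Y : F), Nrm f = algebraMap K F b * Y ^ p)
    (hpx : p • x = 0) (hfix : ∀ s ∈ Γ, s • x = x) (h0 : G.picMap x = 0) : x = 0 := by
  classical
  obtain ⟨D, rfl⟩ := Pic0.mk_surjective x
  obtain ⟨E₀, hE₀0, hdegE₀, hE₀fix, hEb0, hT, hfib⟩ := exists_fixed_nonspecial G hΓ
  obtain ⟨E, D', hE0, hmapE, hD', hD'D⟩ := exists_effective_representative G h0 hdegE₀ hEb0 hT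
  rw [← hD'D] at hpx hfix hTx ⊢
  suffices hEq : E = E₀ by
    refine (QuotientAddGroup.eq_zero_iff D').mpr (AddSubgroup.mem_addSubgroupOf.mpr ?_)
    exact ⟨1, one_ne_zero, fun v => by
      rw [hD', hEq, sub_self, Place.ord_one, Finsupp.coe_zero, Pi.zero_apply]⟩
  have hEfix : ∀ s ∈ Γ, s • E = E := fun s hs =>
    smul_eq_self_of_fixed_class hE0 (finrank_LSpace_eq_one G hE0 (hmapE ▸ hT)) hD' (hfix s hs)
      (hE₀fix s hs)
  -- the function with divisor `p (E - E₀)`
  obtain ⟨f₁, hf₁, hf₁D⟩ : (Divisor.IsPrincipal ((p • D' : _) : Divisor K F)) := by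
    rw [Pic0.mk, ← QuotientAddGroup.mk_nsmul] at hpx
    exact AddSubgroup.mem_addSubgroupOf.mp ((QuotientAddGroup.eq_zero_iff _).mp hpx)
  have hdiv₁ : G.riemann.div f₁ = p • (E - E₀) := by
    rw [← G.riemann.div_eq hf₁D, AddSubgroupClass.coe_nsmul, hD']
  obtain ⟨f₃, hf₃, hord₃⟩ := exists_smul_res_eq_one G hf₁
    (by rw [hdiv₁, map_nsmul, map_sub, hmapE, sub_self, smul_zero])
  have hf₃0 : (f₃ : F) ≠ 0 := red.coe_ne_zero (by rw [hf₃]; exact one_ne_zero)
  have hf₃div : ∀ P : Place K F, P.ord (f₃ : F) = (p : ℤ) * (E P - E₀ P) := fun P => by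
    rw [hord₃, ← G.riemann.div_apply, hdiv₁, Finsupp.smul_apply, nsmul_eq_mul, Finsupp.sub_apply]
  by_cases hconst : ∃ t : K, (f₃ : F) = algebraMap K F t
  · obtain ⟨t, ht⟩ := hconst
    ext P
    have := hf₃div P
    rw [ht, ord_algebraMap_eq_zero] at this
    rcases mul_eq_zero.mp this.symm with h | h
    · exact absurd (by exact_mod_cast h) hp.ne_zero
    · omega
  exfalso
  push Not at hconst
  obtain ⟨f, h, τ, b', hb', hfb, hτ, hfh, hh, hhnc⟩ := G.scaled_decomposition hf₃ hconst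
  have hf0 : (f : F) ≠ 0 := by rw [hfb]; exact mul_ne_zero (by simpa using hb') hf₃0
  have hfdiv : ∀ P : Place K F, P.ord (f : F) = (p : ℤ) * (E P - E₀ P) := fun P => by
    rw [hfb, P.ord_mul (by simpa using hb') hf₃0, ord_algebraMap_eq_zero, zero_add, hf₃div]
  have hspan : Submodule.span K {(1 : F), (f₃ : F)} ≤ LSpace (p • E₀) := by
    rw [Submodule.span_le]
    rintro z (rfl | rfl)
    · exact (mem_LSpace one_ne_zero).mpr fun P => by
        have := hE₀0 P
        simp at this ⊢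
        positivity
    · refine (mem_LSpace hf₃0).mpr fun P => ?_
      have h1 : 0 ≤ (p : ℤ) * E P := mul_nonneg (Int.natCast_nonneg p) (hE0 P)
      rw [hf₃div, Finsupp.smul_apply, nsmul_eq_mul]
      linarith
  have hh0 : red.res h ≠ 0 := fun h' => hhnc 0 (by rw [h', map_zero])
  have hbound := (mem_LSpace hh0).mp (G.res_mem_LSpace (hspan hh))
  rw [map_nsmul] at hbound
  -- a pole of order at least two makes `τ` a unit multiple of `π₀ ^ p`
  obtain ⟨μ, hμ, hτμ⟩ : ∃ μ : A, π μ ≠ 0 ∧ (τ : K) = μ * (π₀ : K) ^ p := by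
    by_contra hno
    suffices hmem : red.res h ∈ LSpace (G.divMap E₀) by
      obtain ⟨t, ht⟩ := RiemannData.eq_const_of_finrank hEb0 hT hmem
      exact hhnc t ht.symm
    rw [mem_LSpace hh0]
    intro Q
    by_cases hQ : G.divMap E₀ Q = 0
    · have := hbound Q
      rw [Finsupp.smul_apply, hQ, nsmul_zero] at this
      rwa [hQ]
    obtain ⟨hQ1, a, P₀, haΓ, haQ, hord, hE₀Q⟩ := hfib Q hQ
    have hge : -1 ≤ Q.ord (red.res h) := (pole_bound_of_fixed G hp hπ₀ hπ₀0 hε hpε hΓ hE0 hEfix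
      (by rw [hmapE, hQ1]) haΓ haQ hord hE₀Q hf0 hfdiv (Subtype.ext hfh) hτ).resolve_right hno
    omega
  -- apply the operator
  obtain ⟨y, hy, hyres⟩ := hNrm (red.algA μ * h)
  have hf1 : f = 1 + red.algA (π₀ ^ p) * (red.algA μ * h) := by
    rw [← mul_assoc, ← map_mul]
    refine Subtype.ext (hfh.trans ?_)
    show (1 : F) + algebraMap K F (τ : K) * (h : F)
      = 1 + algebraMap K F ((π₀ ^ p * μ : A) : K) * (h : F)
    rw [hτμ, MulMemClass.coe_mul, SubmonoidClass.coe_pow, mul_comm (μ : K)]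
  obtain ⟨b₁, Y, hY⟩ := hTx (f : F) D' hf0 rfl fun v => by
    rw [hfdiv v, hD', Finsupp.sub_apply]
  rw [hf1, hy] at hY
  obtain ⟨gb', cb, hform⟩ := exists_form_of_pow G hp hπ₀ hπ₀0 hpε hY
  rw [hform, map_mul, red.res_algA] at hyres
  obtain ⟨R, e₁, c₁, hR⟩ := exists_pow_form hp φ hε hyres.symm
  -- pole orders
  have hμh0 : algebraMap k κ (π μ) * red.res h ≠ 0 := mul_ne_zero (by simpa using hμ) hh0
  obtain ⟨t, ht⟩ := exists_const_of_pow_form hp hEb0 hT hμh0 (fun v => by
    have := hbound v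
    rw [Finsupp.smul_apply, nsmul_eq_mul] at this
    rwa [v.ord_mul (by simpa using hμ) hh0, ord_algebraMap_eq_zero, zero_add]) hR
  apply hhnc ((π μ)⁻¹ * t)
  rw [map_mul, ← ht, ← mul_assoc, ← map_mul, inv_mul_cancel₀ hμ, map_one, one_mul]

end GoodModel

end Fermat.Agent.Supersingular
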