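import Fermat.Agent.Supersingular.Core
import Fermat.Agent.FlatBound.InertiaField
import Fermat.Agent.GoodReductionModular.Gauss
import Fermat.Prelude.Def_ModularCurve_ArithmeticGalois

/-!
# Inertia fixing `ζ_p` on a Gauss reduction

Elements fixed by such inertia take values in `|ζ - 1| ^ ℤ`; a separable fixed function provides
fixed uniformisers almost everywhere.
-/

set_option autoImplicit false

noncomputable section

open AlgebraicCurve ModularCurve IsLocalRing Fermat.Agent.GoodReduction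
open Fermat.Agent.GoodReductionModular
open Fermat.Agent.GaloisBasics (Qbar GalQ)
open scoped IntermediateField

namespace Fermat.Agent.Supersingular

/-- Inertia at `A` fixing `ζ`. -/
def tameKernel (A : ValuationSubring Qbar) (ζ : Qbar) : Set GalQ :=
  {σ | σ ∈ A.inertiaSubgroupIn ℚ ∧ σ ζ = ζ}

variable {A : ValuationSubring Qbar} {p : ℕ} {ζ : Qbar}

/-- A small element fixed by inertia fixing `ζ` is at most `|ζ - 1|`. -/
theorem valuation_le_of_fixed (hA : A.LiesOverPrime p) (hp : p.Prime) (hζ : IsPrimitiveRoot ζ p)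
    {δ : Qbar} (hδ : A.valuation δ < 1) (hfix : ∀ σ ∈ tameKernel A ζ, σ δ = δ) :
    A.valuation δ ≤ A.valuation (ζ - 1) := by
  classical
  rcases eq_or_ne δ 0 with rfl | hδ0
  · simp
  set I := A.inertiaSubgroupIn ℚ with hI
  set S : Finset Qbar := ((Finset.Ico 1 p).image (ζ ^ ·)).filter fun z => ∃ σ ∈ I, σ ζ = z with hS
  have hmem : ∀ σ ∈ I, σ ζ ∈ S := fun σ hσ => by
    refine Finset.mem_filter.mpr ⟨?_, σ, hσ, rfl⟩
    have : NeZero p := ⟨hp.ne_zero⟩
    obtain ⟨i, hi, hie⟩ := hζ.eq_pow_of_pow_eq_one (ξ := σ ζ)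
      (by rw [← map_pow, hζ.pow_eq_one, map_one])
    refine Finset.mem_image.mpr ⟨i, Finset.mem_Ico.mpr ⟨Nat.one_le_iff_ne_zero.mpr fun h0 => ?_,
      hi⟩, hie⟩
    rw [h0, pow_zero] at hie
    exact hζ.ne_one hp.one_lt (σ.injective (by rw [← hie, map_one]))
  have hcard : S.card ≤ p - 1 := by
    refine (Finset.card_filter_le _ _).trans (Finset.card_image_le.trans ?_)
    simp
  have hpos : 0 < S.card := Finset.card_pos.mpr ⟨_, hmem 1 (one_mem I)⟩
  have hsel : ∀ z : Qbar, ∃ σ : GalQ, σ ∈ I ∧ (z ∈ S → σ ζ = z) := fun z => by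
    by_cases hz : z ∈ S
    · obtain ⟨σ, hσ, he⟩ := (Finset.mem_filter.mp hz).2
      exact ⟨σ, hσ, fun _ => he⟩
    · exact ⟨1, one_mem I, fun h => absurd h hz⟩
  choose s hsI hs using hsel
  have hconj : ∀ σ τ : GalQ, σ ∈ I → τ ∈ I → σ ζ = τ ζ → σ δ = τ δ := fun σ τ hσ hτ h => by
    have := hfix (τ⁻¹ * σ) ⟨mul_mem (inv_mem hτ) hσ, by
      rw [AlgEquiv.mul_apply, h]; exact τ.symm_apply_apply ζ⟩
    rw [AlgEquiv.mul_apply] at this
    exact τ.symm.injective (this.trans (τ.symm_apply_apply δ).symm)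
  set P : Qbar := ∏ z ∈ S, s z δ with hP
  have hPfix : ∀ τ ∈ I, τ P = P := by
    intro τ hτ
    rw [hP, map_prod]
    have himg : S.image τ = S := by
      refine Finset.eq_of_subset_of_card_le ?_ (Finset.card_image_of_injective _ τ.injective).ge
      intro w hw
      obtain ⟨z, hz, rfl⟩ := Finset.mem_image.mp hw
      rw [← hs z hz, ← AlgEquiv.mul_apply]
      exact hmem _ (mul_mem hτ (hsI z))
    conv_rhs => rw [← himg, Finset.prod_image τ.injective.injOn]
    refine Finset.prod_congr rfl fun z hz => ?_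
    rw [← AlgEquiv.mul_apply]
    refine hconj _ _ (mul_mem hτ (hsI z)) (hsI _) ?_
    rw [AlgEquiv.mul_apply, hs z hz, hs _ (himg ▸ Finset.mem_image_of_mem _ hz)]
  have hvP : A.valuation P = A.valuation δ ^ S.card := by
    rw [hP, map_prod, Finset.prod_congr rfl fun z _ =>
      LocalInertia.valuation_apply
        (LocalInertia.inertiaSubgroupIn_le_decompositionSubgroup (hsI z)) δ,
      Finset.prod_const]
  have hP0 : P ≠ 0 := Finset.prod_ne_zero_iff.mpr fun z _ => by simpa using hδ0
  obtain ⟨j, hj⟩ := FlatBound.exists_zpow_of_inertia_fixed hA hp hP0 hPfix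
  have hp1 := FlatBound.valuation_natCast_prime_lt_one hA
  have hp0 := FlatBound.valuation_natCast_prime_pos A hp
  have hlt : A.valuation (p : Qbar) ^ j < 1 := by
    rw [← hj, hvP]; exact pow_lt_one₀ zero_le hδ hpos.ne'
  have hj1 : 1 ≤ j := by
    by_contra hlt'
    exact absurd hlt (not_lt.mpr (one_le_zpow_of_nonpos₀ hp0 hp1.le (by omega)))
  obtain ⟨n, rfl⟩ : ∃ n : ℕ, j = (n + 1 : ℕ) := ⟨(j - 1).toNat, by omega⟩
  rw [zpow_natCast, hvP] at hj
  refine le_of_pow_le_pow_left₀ (n := p - 1) (by have := hp.two_le; omega) zero_le ?_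
  rw [FlatBound.valuation_zeta_sub_one_pow hA hp hζ]
  calc A.valuation δ ^ (p - 1) ≤ A.valuation δ ^ S.card :=
        pow_le_pow_right_of_le_one' hδ.le hcard
    _ = A.valuation (p : Qbar) ^ (n + 1) := hj
    _ ≤ A.valuation (p : Qbar) := pow_le_of_le_one zero_le hp1.le (Nat.succ_ne_zero n)

theorem residue_eq_zero_iff_valuation {a : A} :
    residue A a = 0 ↔ A.valuation (a : Qbar) < 1 := by
  rw [residue_eq_zero_iff, ValuationSubring.valuation_lt_one_iff]

/-- `π₀ = ζ - 1` and `ε = p / π₀ ^ (p - 1)`. -/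
theorem exists_pi_zero (hA : A.LiesOverPrime p) (hp : p.Prime) (hζ : IsPrimitiveRoot ζ p) :
    ∃ π₀ ε : A, (π₀ : Qbar) = ζ - 1 ∧ residue A π₀ = 0 ∧ (π₀ : Qbar) ≠ 0 ∧ residue A ε ≠ 0 ∧
      (p : Qbar) = (ε : Qbar) * (π₀ : Qbar) ^ (p - 1) := by
  have hlt := FlatBound.valuation_zeta_sub_one_lt_one hA hp hζ.pow_eq_one
  have hne : ζ - 1 ≠ 0 := sub_ne_zero.mpr (hζ.ne_one hp.one_lt)
  have hv : A.valuation ((p : Qbar) / (ζ - 1) ^ (p - 1)) = 1 := by
    rw [map_div₀, map_pow, FlatBound.valuation_zeta_sub_one_pow hA hp hζ,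
      div_self (FlatBound.valuation_natCast_prime_pos A hp).ne']
  refine ⟨⟨ζ - 1, (A.valuation_le_one_iff _).mp hlt.le⟩,
    ⟨_, (A.valuation_le_one_iff _).mp hv.le⟩, rfl, residue_eq_zero_iff_valuation.mpr hlt, hne,
    fun h => ?_, (div_mul_cancel₀ _ (pow_ne_zero _ hne)).symm⟩
  exact (residue_eq_zero_iff_valuation.mp h).ne hv

section Lift

variable {K k F κ : Type*} [Field K] [Field k] [Field F] [Field κ] [Algebra K F] [Algebra k κ]
  {B : ValuationSubring K} {π : B →+* k} {red : Reduction F κ B π} {g : ℕ} {c : ℤ}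
  {H : Divisor K F} {Hb : Divisor k κ}
  [FunctionField.IsFunctionField K F] [FunctionField.IsFunctionField k κ] [IsAlgClosed k]

/-- A fixed function with separable reduction gives fixed uniformisers outside a finite set. -/
theorem exists_fixed_uniformisers (G : GoodModel red g c H Hb) (Γ : Set (SemilinearAut K F))
    {x : red.V} (hx : ∀ s ∈ Γ, s • (x : F) = x)
    (ht : Transcendental k (red.res x)) [Algebra.IsSeparable k⟮red.res x⟯ κ]
    (hlift : ∀ y : k, ∃ w : B, π w = y ∧ ∀ s ∈ Γ, SemilinearAut.baseAut s (w : K) = w) :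
    ∃ S : Finset (Place k κ), ∀ Q ∉ S, ∃ a : red.V, (∀ s ∈ Γ, s • (a : F) = a) ∧
      Q.ord (red.res a) = 1 ∧ ∀ P, G.placeMap P = Q → 0 ≤ P.ord (a : F) := by
  classical
  set n := FunctionField.degFun k (red.res x) with hn
  let bad : Set k := {s | (fibre (red.res x) s).card < n}
  have hbad : bad.Finite := by
    by_contra hinf
    obtain ⟨T, hT, hTc⟩ :=
      (Set.not_finite.mp hinf).exists_subset_card_eq (2 * (genusFF k κ + n) + 1)
    have h := hurwitz_le ht T
    have h1 : (T.card : ℤ) ≤ ∑ s ∈ T, ((n : ℤ) - (fibre (red.res x) s).card) := by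
      rw [Finset.card_eq_sum_ones, Nat.cast_sum]
      refine Finset.sum_le_sum fun s hs => ?_
      have : (fibre (red.res x) s).card < n := hT hs
      push_cast
      omega
    have h2 : ((poles k (red.res x)).card : ℤ) ≤ n := by
      exact_mod_cast card_zeros_le (FunctionField.transcendental_inv ht) |>.trans
        (by rw [hn, FunctionField.degFun_inv])
    rw [← hn] at h
    omega
  refine ⟨(poles K (x : F)).image G.placeMap ∪ poles k (red.res x) ∪
    hbad.toFinset.biUnion (fun s => fibre (red.res x) s), fun Q hQ => ?_⟩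
  simp only [Finset.mem_union, not_or, Finset.mem_image, not_exists, not_and, Finset.mem_biUnion,
    Set.Finite.mem_toFinset, mem_poles, not_lt] at hQ
  obtain ⟨⟨hQK, hQk⟩, hQbad⟩ := hQ
  have R' := G.riemann'
  obtain ⟨s, hs⟩ := exists_value Q (R'.deg_one Q) hQk
  obtain ⟨w, hw, hwfix⟩ := hlift s
  have hres : red.res (x - red.algA w) = red.res x - algebraMap k κ s := by
    rw [map_sub, red.res_algA, hw]
  have hne : red.res x - algebraMap k κ s ≠ 0 := fun h0 => by
    rw [sub_eq_zero] at h0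
    exact ht (h0 ▸ isAlgebraic_algebraMap s)
  have hmem : Q ∈ fibre (red.res x) s := mem_zeros.mpr (by
    rcases hs with h | h
    · exact absurd (sub_eq_zero.mpr h) hne
    · omega)
  refine ⟨x - red.algA w, fun σ hσ => ?_, ?_, fun P hP => ?_⟩
  · show σ • ((x : F) - algebraMap K F (w : K)) = _
    rw [smul_sub, hx σ hσ, SemilinearAut.smul_algebraMap, hwfix σ hσ]
    rfl
  · rw [hres]
    have hsb : ¬ (fibre (red.res x) s).card < n := fun hb => hQbad s hb hmem
    have hone : ∀ v ∈ fibre (red.res x) s, (1 : ℤ) ≤ v.ord (red.res x - algebraMap k κ s) :=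
      fun v hv => mem_zeros.mp hv
    have hsum := sum_ord_fibre (x := red.res x) ht s
    rw [← Finset.add_sum_erase _ _ hmem, ← hn] at hsum
    have h3 : ((fibre (red.res x) s).erase Q).card ≤
        ∑ v ∈ (fibre (red.res x) s).erase Q, v.ord (red.res x - algebraMap k κ s) := by
      rw [Finset.card_eq_sum_ones, Nat.cast_sum]
      exact Finset.sum_le_sum fun v hv => by
        simpa using hone v (Finset.mem_of_mem_erase hv)
    rw [Finset.card_erase_of_mem hmem] at h3
    have h4 := hone Q hmem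
    have h5 : 1 ≤ (fibre (red.res x) s).card := Finset.card_pos.mpr ⟨Q, hmem⟩
    omega
  · show 0 ≤ P.ord ((x : F) - algebraMap K F (w : K))
    rcases eq_or_ne ((x : F) - algebraMap K F (w : K)) 0 with h0 | h0
    · rw [h0]; simp
    refine le_ord_sub P (Or.inr ?_) (Or.inr (by rw [ord_algebraMap_eq_zero])) h0
    by_contra hlt
    exact hQK P (by omega) hP

end Lift

section Gauss

variable {M : ℕ} {k : Type*} [Field k] {π : A →+* k} {κ : IntermediateField k (LaurentSeries k)}
  (H : GaussInput (modularFunctionFieldBar M) κ π)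

include H in
theorem gauss_map_eq_zero_iff {a : A} : π a = 0 ↔ A.valuation (a : Qbar) < 1 := by
  rw [(gaussReduction H).map_eq_zero_iff, ← residue_eq_zero_iff_valuation,
    residue_eq_zero_iff, IsLocalRing.mem_maximalIdeal]
  rfl

/-- The semilinear automorphisms attached to `tameKernel A ζ`. -/
def tameAuts (A : ValuationSubring Qbar) (ζ : Qbar) :
    Set (SemilinearAut Qbar (modularFunctionFieldBar M)) :=
  arithmeticGalois (modularFunctionFieldFull M) '' tameKernel A ζ

/-- Inertia acts trivially on the residues. -/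
theorem gauss_smul_res {σ : GalQ} (hσ : σ ∈ A.inertiaSubgroupIn ℚ)
    (f : (gaussReduction H).V) :
    ∃ h : arithmeticGalois (modularFunctionFieldFull M) σ • (f : modularFunctionFieldBar M)
        ∈ (gaussReduction H).V,
      (gaussReduction H).res ⟨_, h⟩ = (gaussReduction H).res f := by
  obtain ⟨hdec, hI⟩ := LocalInertia.mem_inertiaSubgroupIn_iff.mp hσ
  obtain ⟨y₁, y₂, h1, h2, h20, e⟩ := exists_gaussReduction_quotient H f
  let σA : A →+* A :=
    ((σ : Qbar →+* Qbar).comp A.subtype).codRestrict A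
      fun a => (LocalInertia.mem_decompositionSubgroup_iff.mp hdec _).mpr a.2
  have hlift : ∀ y, liftK A (coeffMap σA y) = coeffMap (σ : Qbar →+* Qbar) (liftK A y) :=
    fun y => HahnSeries.ext (funext fun n => rfl)
  have hπ : ∀ y, coeffMap π (coeffMap σA y) = coeffMap π y := fun y =>
    HahnSeries.ext (funext fun n => by
      rw [coeffMap_coeff, coeffMap_coeff, coeffMap_coeff, ← sub_eq_zero, ← map_sub,
        gauss_map_eq_zero_iff H]
      exact hI _ (y.coeff n).2)
  have hmem : ∀ y, liftK A y ∈ modularFunctionFieldBar M →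
      liftK A (coeffMap σA y) ∈ modularFunctionFieldBar M := fun y hy => by
    rw [hlift]; exact coeffMap_mem_laurentBaseChange σ hy
  have heq : ((arithmeticGalois (modularFunctionFieldFull M) σ •
      (f : modularFunctionFieldBar M) : modularFunctionFieldBar M) : LaurentSeries Qbar)
      * liftK A (coeffMap σA y₂) = liftK A (coeffMap σA y₁) := by
    rw [hlift, hlift, coe_arithmeticGalois_smul, ← map_mul, e]
  have hV : arithmeticGalois (modularFunctionFieldFull M) σ • (f : modularFunctionFieldBar M)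
      ∈ (gaussReduction H).V :=
    ⟨_, _, hmem y₁ h1, hmem y₂ h2, by rw [hπ]; exact h20, heq⟩
  refine ⟨hV, Subtype.ext ?_⟩
  rw [gaussReduction_res_eq H ⟨_, hV⟩ (y₁ := coeffMap σA y₁) (y₂ := coeffMap σA y₂)
    (by rw [hπ]; exact h20) heq, gaussReduction_res_eq H f h20 e, hπ, hπ]

variable [FunctionField.IsFunctionField Qbar (modularFunctionFieldBar M)]
  [FunctionField.IsFunctionField k κ] [IsAlgClosed k]
  {g : ℕ} {c : ℤ} {D : Divisor Qbar (modularFunctionFieldBar M)} {Db : Divisor k κ}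

/-- The group of the core, from a fixed function with separable reduction. -/
theorem isInertiaLike_gauss (G : GoodModel (gaussReduction H) g c D Db) (hA : A.LiesOverPrime p)
    (hp : p.Prime) (hζ : IsPrimitiveRoot ζ p) {π₀ : A} (hπ₀ : (π₀ : Qbar) = ζ - 1)
    (hD : ∀ σ ∈ A.inertiaSubgroupIn ℚ, arithmeticGalois (modularFunctionFieldFull M) σ • D = D)
    {x : (gaussReduction H).V}
    (hx : ∀ σ : GalQ, arithmeticGalois (modularFunctionFieldFull M) σ •
      (x : modularFunctionFieldBar M) = x)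
    (ht : Transcendental k ((gaussReduction H).res x))
    [Algebra.IsSeparable k⟮(gaussReduction H).res x⟯ κ] :
    GoodModel.IsInertiaLike G (tameAuts A ζ) π₀ where
  smul_polarisation := by rintro _ ⟨σ, hσ, rfl⟩; exact hD σ hσ.1
  smul_res := by rintro _ ⟨σ, hσ, rfl⟩; exact gauss_smul_res H hσ.1
  value δ hδ hfix := by
    have hle := valuation_le_of_fixed hA hp hζ ((gauss_map_eq_zero_iff H).mp hδ)
      fun σ hσ => hfix _ ⟨σ, hσ, rfl⟩
    have hne : ζ - 1 ≠ 0 := sub_ne_zero.mpr (hζ.ne_one hp.one_lt)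
    refine ⟨⟨(δ : Qbar) / (ζ - 1), (A.valuation_le_one_iff _).mp ?_⟩, ?_⟩
    · rw [map_div₀]
      exact (div_le_one₀ (zero_lt_iff.mpr ((map_ne_zero _).mpr hne))).mpr hle
    · rw [hπ₀]; exact (div_mul_cancel₀ _ hne).symm
  lift := exists_fixed_uniformisers G _ (by rintro _ ⟨σ, -, rfl⟩; exact hx σ) ht fun y => by
    obtain ⟨a, rfl⟩ := H.surjective y
    obtain ⟨w, hw, hfix⟩ := FlatBound.exists_fixed_lift hA hp (residue A a)
    refine ⟨w, ?_, ?_⟩
    · rw [← sub_eq_zero, ← map_sub, gauss_map_eq_zero_iff H, ← residue_eq_zero_iff_valuation,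
        map_sub, hw, sub_self]
    rintro _ ⟨σ, hσ, rfl⟩
    exact hfix σ hσ.1

end Gauss

end Fermat.Agent.Supersingular
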