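import Fermat.Agent.GoodReduction.Criterion
import Fermat.Agent.GoodReductionModular.Gauss
import Fermat.Agent.Hecke.Degree
import Fermat.Agent.Specialization.Series

/-!
# The Hecke norm of `1 + τ h` modulo `τ m`

For a prime `p ∤ M` and `|τ| < 1`, the norm of `1 + τ h` is `1 + τ x` with `x` reducing to
`h (q ^ p)`.
-/

set_option autoImplicit false

noncomputable section

open AlgebraicCurve ModularCurve Fermat.Agent.ModularFunctionField
open Fermat.Agent.GoodReduction Fermat.Agent.GoodReductionModular

namespace Fermat.Agent.Supersingular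

/-- A product of perturbed factors with common residues. -/
theorem exists_prod_add_mul {S S' : Type*} [CommRing S] [CommRing S'] (f : S →+* S') {ι : Type*}
    (s : Finset ι) (b c : ι → S) {τ : S} (hτ : f τ = 0) {B C : S'}
    (hb : ∀ i ∈ s, f (b i) = B) (hc : ∀ i ∈ s, f (c i) = C) :
    ∃ R : S, ∏ i ∈ s, (b i + τ * c i) = ∏ i ∈ s, b i + τ * R ∧
      f R = s.card * C * B ^ (s.card - 1) := by
  classical
  induction s using Finset.induction with
  | empty => exact ⟨0, by simp, by simp⟩
  | insert a s ha ih =>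
    obtain ⟨R, hR, hfR⟩ := ih (fun i hi => hb i (Finset.mem_insert_of_mem hi))
      fun i hi => hc i (Finset.mem_insert_of_mem hi)
    refine ⟨b a * R + c a * ∏ i ∈ s, b i + τ * (c a * R), ?_, ?_⟩
    · rw [Finset.prod_insert ha, Finset.prod_insert ha, hR]
      ring
    · have hbs : f (∏ i ∈ s, b i) = B ^ s.card := by
        rw [map_prod, Finset.prod_congr rfl fun i hi => hb i (Finset.mem_insert_of_mem hi),
          Finset.prod_const]
      rw [map_add, map_add, map_mul, map_mul, map_mul, hτ, zero_mul, add_zero, hfR, hbs,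
        hb a (Finset.mem_insert_self a s), hc a (Finset.mem_insert_self a s),
        Finset.card_insert_of_notMem ha, Nat.add_sub_cancel]
      rcases s.card.eq_zero_or_pos with h | h
      · simp [h]
      · obtain ⟨n, hn⟩ := Nat.exists_eq_add_of_le h
        rw [hn, show (1 + n - 1) = n by omega, show (1 + n) = n + 1 by omega, pow_succ]
        push_cast
        ring

variable {K : Type*} [Field K]

/-- A series whose substitution `q ↦ q ^ p` is integral is integral. -/
theorem exists_liftK_of_qExpand {A : ValuationSubring K} {p : ℕ} [NeZero p]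
    {Z : LaurentSeries K} {P : LaurentSeries A} (h : qExpand K p Z = liftK A P) :
    ∃ Y : LaurentSeries A, liftK A Y = Z ∧ qExpand A p Y = P := by
  have hc : ∀ n : ℤ, Z.coeff n ∈ A := fun n => by
    have := congrArg (fun x : LaurentSeries K => x.coeff ((p : ℤ) * n)) h
    simp only [qExpand_coeff_mul, liftK_coeff] at this
    rw [this]
    exact SetLike.coe_mem _
  refine ⟨⟨fun n => ⟨Z.coeff n, hc n⟩, Z.isPWO_support'.mono fun n hn => ?_⟩, ?_, ?_⟩
  · simp only [Function.mem_support] at hn ⊢
    exact fun h0 => hn (Subtype.ext h0)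
  · exact HahnSeries.ext (funext fun n => rfl)
  · refine liftK_injective ?_
    rw [← h, liftK, coeffMap_qExpand']
    congr 1

local notation "K" => AlgebraicClosure ℚ

variable {k : Type*} [Field k] {A : ValuationSubring K} {π : A →+* k}
  {M p : ℕ} [NeZero M] [NeZero p]

/-- The Hecke norm is multiplicative. -/
theorem heckeNorm_mul (f g : laurentBaseChange K (modularFunctionFieldFull M)) :
    Hecke.heckeNorm K M p (f * g) = Hecke.heckeNorm K M p f * Hecke.heckeNorm K M p g := by
  simp only [Hecke.heckeNorm, map_mul]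

/-- The `p`-th root of unity as a unit of the valuation ring. -/
theorem exists_unit_root (hp : p.Prime) [CharP k p] :
    ∃ (z : Kˣ) (u : Aˣ), IsPrimitiveRoot z p ∧ Units.map (A.subtype : A →* K) u = z ∧
      Units.map (π : A →* k) u = 1 := by
  have : Fact p.Prime := ⟨hp⟩
  have : NeZero ((p : ℕ) : K) := ⟨Nat.cast_ne_zero.mpr hp.ne_zero⟩
  obtain ⟨ζ, hζ⟩ := HasEnoughRootsOfUnity.exists_primitiveRoot K p
  have hζA : ζ ∈ A := by
    rcases A.mem_or_inv_mem ζ with h | h
    · exact h
    · have : ζ = ζ⁻¹ ^ (p - 1) := by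
        refine mul_right_cancel₀ (inv_ne_zero (hζ.ne_zero hp.ne_zero)) ?_
        rw [mul_inv_cancel₀ (hζ.ne_zero hp.ne_zero), ← pow_succ,
          Nat.sub_add_cancel hp.one_le, inv_pow, hζ.pow_eq_one, inv_one]
      rw [this]
      exact pow_mem h _
  have hp1 : (⟨ζ, hζA⟩ : A) ^ p = 1 := Subtype.ext hζ.pow_eq_one
  let u : Aˣ := Units.ofPowEqOne _ p hp1 hp.ne_zero
  refine ⟨Units.map (A.subtype : A →* K) u, u, ?_, rfl, Units.ext ?_⟩
  · exact IsPrimitiveRoot.coe_units_iff.mp hζ
  · show π ⟨ζ, hζA⟩ = 1
    apply frobenius_inj k p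
    show π ⟨ζ, hζA⟩ ^ p = 1 ^ p
    rw [one_pow, ← map_pow, hp1, map_one]

variable {κ : IntermediateField k (LaurentSeries k)}
  (H : GaussInput (laurentBaseChange K (modularFunctionFieldFull M)) κ π)

/-- **The residue of the Hecke norm of `1 + τ h`.** -/
theorem exists_norm_residue (hp : p.Prime) (hpM : ¬ p ∣ M) [CharP k p] {τ : A}
    (hτ : π τ = 0) (hτ0 : (τ : K) ≠ 0) (h : (gaussReduction H).V) :
    ∃ x : (gaussReduction H).V,
      Hecke.heckeNorm K M p ((1 + (gaussReduction H).algA τ * h : (gaussReduction H).V) :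
          laurentBaseChange K (modularFunctionFieldFull M))
        = ((1 + (gaussReduction H).algA τ * x : (gaussReduction H).V) :
          laurentBaseChange K (modularFunctionFieldFull M)) ∧
      ((gaussReduction H).res x : LaurentSeries k)
        = qExpand k p ((gaussReduction H).res h : LaurentSeries k) := by
  classical
  obtain ⟨z, u, hz, huz, huπ⟩ := exists_unit_root (π := π) hp
  obtain ⟨y₁, y₂, h1, h2, h20, e⟩ := exists_gaussReduction_quotient H h
  -- the integral model of `qExpand p ∘ heckeNorm`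
  let Φ : LaurentSeries A → LaurentSeries A := fun y =>
    qExpand A (p * p) y * ∏ i ∈ Finset.range p, twist (u ^ i) y
  have hΦ : ∀ (y : LaurentSeries A) (hy : liftK A y ∈ laurentBaseChange K (modularFunctionFieldFull M)),
      qExpand K p (Hecke.heckeNorm K M p ⟨liftK A y, hy⟩ : LaurentSeries K) = liftK A (Φ y) := by
    intro y hy
    rw [Hecke.qExpand_heckeNorm M p hp hpM hz]
    simp only [Φ, map_mul, map_prod]
    congr 1
    · exact (coeffMap_qExpand' A.subtype (p * p) y).symm
    · refine Finset.prod_congr rfl fun i _ => ?_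
      rw [liftK, coeffMap_twist, map_pow, ← huz]
  -- reduction of the twists
  have htw : ∀ (i : ℕ) (y : LaurentSeries A), coeffMap π (twist (u ^ i) y) = coeffMap π y := by
    intro i y
    rw [coeffMap_twist, map_pow, huπ, one_pow, twist_one]
  -- the expansion
  set C : LaurentSeries A := HahnSeries.C τ with hC
  have hC0 : coeffMap π C = 0 := by rw [hC, coeffMap_C, hτ, map_zero]
  obtain ⟨R, hR, hRπ⟩ := exists_prod_add_mul (coeffMap π) (Finset.range p)
    (fun i => twist (u ^ i) y₂) (fun i => twist (u ^ i) y₁) hC0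
    (B := coeffMap π y₂) (C := coeffMap π y₁) (fun i _ => htw i y₂) (fun i _ => htw i y₁)
  set R₂ : LaurentSeries A :=
    qExpand A (p * p) y₁ * ∏ i ∈ Finset.range p, twist (u ^ i) y₂
      + qExpand A (p * p) y₂ * R + C * (qExpand A (p * p) y₁ * R) with hR₂
  have hy12 : liftK A (y₂ + C * y₁) ∈ laurentBaseChange K (modularFunctionFieldFull M) := by
    rw [map_add, map_mul, hC, liftK_C]
    exact add_mem h2 (mul_mem (IntermediateField.algebraMap_mem _ _) h1)
  have hΦdiff : Φ (y₂ + C * y₁) = Φ y₂ + C * R₂ := by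
    simp only [Φ]
    rw [map_add, map_mul, hC, qExpand_C, ← hC,
      Finset.prod_congr rfl fun i _ => show twist (u ^ i) (y₂ + C * y₁)
        = twist (u ^ i) y₂ + C * twist (u ^ i) y₁ by rw [map_add, map_mul, hC, twist_C],
      hR, hR₂]
    ring
  -- the denominator
  obtain ⟨Y₂, hY₂, hY₂P⟩ := exists_liftK_of_qExpand (hΦ y₂ h2)
  have hY₂π : qExpand k p (coeffMap π Y₂)
      = qExpand k (p * p) (coeffMap π y₂) * coeffMap π y₂ ^ p := by
    rw [← coeffMap_qExpand', hY₂P]
    simp only [Φ, map_mul, map_prod, coeffMap_qExpand', htw, Finset.prod_const,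
      Finset.card_range]
  have hY₂0 : coeffMap π Y₂ ≠ 0 := fun h0 => by
    rw [h0, map_zero] at hY₂π
    exact mul_ne_zero ((map_ne_zero_iff _ (qExpand_injective (p * p))).mpr h20)
      (pow_ne_zero _ h20) hY₂π.symm
  -- the numerator
  let N₁ := Hecke.heckeNorm K M p ⟨liftK A (y₂ + C * y₁), hy12⟩
  let N₂ := Hecke.heckeNorm K M p ⟨liftK A y₂, h2⟩
  let τF : laurentBaseChange K (modularFunctionFieldFull M) := algebraMap K _ (τ : K)
  have hτS : (τF : LaurentSeries K) ≠ 0 := fun h0 =>
    (map_ne_zero_iff _ (algebraMap K _).injective).mpr hτ0 (Subtype.ext h0)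
  have hW : qExpand K p ((((N₁ - N₂) / τF : laurentBaseChange K (modularFunctionFieldFull M))) :
      LaurentSeries K) = liftK A R₂ := by
    have hτq : qExpand K p (τF : LaurentSeries K) = liftK A C := by
      rw [hC, liftK_C]
      show qExpand K p (algebraMap K (LaurentSeries K) (τ : K)) = _
      rw [algebraMap_laurentSeries_eq_single, ← HahnSeries.C_apply, qExpand_C]
    push_cast
    rw [map_div₀, map_sub, hΦ, hΦ, hΦdiff, map_add, hτq, add_sub_cancel_left, map_mul,
      mul_div_cancel_left₀]
    rw [← hτq]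
    exact (map_ne_zero_iff _ (qExpand_injective p)).mpr hτS
  obtain ⟨W, hWlift, hWP⟩ := exists_liftK_of_qExpand hW
  have hWπ : qExpand k p (coeffMap π W)
      = qExpand k (p * p) (coeffMap π y₁) * coeffMap π y₂ ^ p := by
    rw [← coeffMap_qExpand', hWP, hR₂]
    simp only [map_add, map_mul, map_prod, coeffMap_qExpand', htw, hC0, hRπ, zero_mul, add_zero,
      Finset.prod_const, Finset.card_range]
    rw [show (p : LaurentSeries k) = HahnSeries.C (p : k) by rw [map_natCast], CharP.cast_eq_zero,
      map_zero]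
    ring
  -- the quotient
  have hWF : liftK A W ∈ laurentBaseChange K (modularFunctionFieldFull M) := by
    rw [hWlift]; exact SetLike.coe_mem _
  have hY₂F : liftK A Y₂ ∈ laurentBaseChange K (modularFunctionFieldFull M) := by
    rw [hY₂]; exact SetLike.coe_mem _
  let x₀ : laurentBaseChange K (modularFunctionFieldFull M) := (N₁ - N₂) / τF / N₂
  have hN₂0 : (N₂ : LaurentSeries K) ≠ 0 := fun h0 => hY₂0 (by
    rw [show Y₂ = 0 from liftK_injective (by rw [hY₂, map_zero]; exact h0), map_zero])
  have hx₀ : (x₀ : LaurentSeries K) * liftK A Y₂ = liftK A W := by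
    rw [hY₂, hWlift]
    show (((N₁ - N₂) / τF : laurentBaseChange K (modularFunctionFieldFull M)) : LaurentSeries K)
      / (N₂ : LaurentSeries K) * (N₂ : LaurentSeries K) = _
    rw [div_mul_cancel₀ _ hN₂0]
  have hxV : x₀ ∈ (gaussReduction H).V := ⟨W, Y₂, hWF, hY₂F, hY₂0, hx₀⟩
  refine ⟨⟨x₀, hxV⟩, ?_, ?_⟩
  · have hmul : ((1 + (gaussReduction H).algA τ * h : (gaussReduction H).V) :
          laurentBaseChange K (modularFunctionFieldFull M))
        * ⟨liftK A y₂, h2⟩ = ⟨liftK A (y₂ + C * y₁), hy12⟩ := Subtype.ext (by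
      show (1 + algebraMap K (LaurentSeries K) (τ : K) * ((h : laurentBaseChange K
        (modularFunctionFieldFull M)) : LaurentSeries K)) * liftK A y₂ = liftK A (y₂ + C * y₁)
      rw [map_add, map_mul, hC, liftK_C, ← e]
      ring)
    have h3 := congrArg (Hecke.heckeNorm K M p) hmul
    rw [heckeNorm_mul] at h3
    have hN₂F : N₂ ≠ 0 := fun h0 => hN₂0 (congrArg Subtype.val h0)
    have hτF : τF ≠ 0 := fun h0 => hτS (congrArg Subtype.val h0)
    show _ = 1 + τF * x₀
    have hx₀def : x₀ = (N₁ - N₂) / τF / N₂ := rfl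
    have h3' : Hecke.heckeNorm K M p ((1 + (gaussReduction H).algA τ * h :
        (gaussReduction H).V) : laurentBaseChange K (modularFunctionFieldFull M)) * N₂ = N₁ := h3
    rw [hx₀def]
    generalize Hecke.heckeNorm K M p ((1 + (gaussReduction H).algA τ * h :
        (gaussReduction H).V) : laurentBaseChange K (modularFunctionFieldFull M)) = a at h3' ⊢
    clear_value N₁ N₂ τF
    rw [← h3']
    field_simp
    ring
  · have e₁ := gaussReduction_res_eq H ⟨x₀, hxV⟩ (y₁ := W) (y₂ := Y₂) hY₂0 hx₀
    rw [e₁, gaussReduction_res_eq H h h20 e]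
    refine qExpand_injective p ?_
    rw [map_div₀, hWπ, hY₂π, qExpand_qExpand, map_div₀]
    rw [mul_div_mul_right _ _ (pow_ne_zero _ h20)]

end Fermat.Agent.Supersingular
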