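import Fermat.Agent.Supersingular.Inertia
import Fermat.Agent.Supersingular.NormResidue
import Fermat.Agent.Specialization.JZero
import Fermat.Agent.GoodReductionS18.Core
import Fermat.Agent.GoodReductionS18.ResidualField
import Fermat.Agent.GaloisBasics.ResidueField

/-!
# The supersingular core on `J₀(N)`

For an odd prime `p ∤ N`, a point of `J₀(N)[p]` killed by `T_p` and fixed by the inertia elements
at a place over `p` fixing `ζ_p` vanishes, given a good Gauss model at level `lcm(N, 2)`.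
-/

set_option autoImplicit false

noncomputable section

open AlgebraicCurve ModularCurve IsLocalRing
open Fermat.Agent.GoodReduction Fermat.Agent.GoodReductionModular
open Fermat.Agent.GaloisBasics (Qbar GalQ)
open scoped IntermediateField

namespace Fermat.Agent.Supersingular

/-- A good Gauss model at level `M` whose polarisation is stable under inertia, with a rational
function of separable reduction. -/
def HasTameModel (A : ValuationSubring Qbar) (M : ℕ) [NeZero M] : Prop :=
  ∃ (H : GaussInput (modularFunctionFieldBar M)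
      (modularFunctionFieldFullC (ResidueField A) M) (residue A)) (g : ℕ) (c : ℤ)
    (D : Divisor Qbar (modularFunctionFieldBar M))
    (Db : Divisor (ResidueField A) (modularFunctionFieldFullC (ResidueField A) M)),
    GoodModel (gaussReduction H) g c D Db ∧
    (∀ σ ∈ A.inertiaSubgroupIn ℚ, arithmeticGalois (modularFunctionFieldFull M) σ • D = D) ∧
    ∃ x : (gaussReduction H).V,
      (∀ σ : GalQ, arithmeticGalois (modularFunctionFieldFull M) σ •
        (x : modularFunctionFieldBar M) = x) ∧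
      Transcendental (ResidueField A) ((gaussReduction H).res x) ∧
      Algebra.IsSeparable (ResidueField A)⟮(gaussReduction H).res x⟯
        (modularFunctionFieldFullC (ResidueField A) M)

/-- The Gauss reduction of a level field reduces series coefficientwise. -/
theorem isSeriesReduction_gauss {A : ValuationSubring Qbar} {M : ℕ} {k : Type*} [Field k]
    {π : A →+* k}
    (H : GaussInput (modularFunctionFieldBar M) (modularFunctionFieldFullC k M) π) :
    Specialization.IsSeriesReduction (gaussReduction H) := by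
  refine ⟨fun y f hf => ?_, fun x => exists_gaussReduction_quotient H x⟩
  have hy : liftK A y ∈ modularFunctionFieldBar M := by
    rw [liftK, ← hf]; exact f.2
  exact ⟨⟨_, liftK_mem_gaussReduction H hy⟩, Subtype.ext hf.symm,
    gaussReduction_res_liftK H hy⟩

/-- A constant has constant norm. -/
theorem heckeNorm_algebraMap {N p : ℕ} [NeZero N] [NeZero p] (c : Qbar) :
    ∃ c' : Qbar, Hecke.heckeNorm Qbar N p (algebraMap Qbar (modularFunctionFieldBar N) c)
      = algebraMap Qbar (modularFunctionFieldBar N) c' := by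
  let n : ℕ := finrankAlong Qbar (heckeAlphaBar Qbar N p)
  refine ⟨c ^ n, ?_⟩
  let := algebraAlong (heckeAlphaBar Qbar N p)
  show Algebra.norm (modularFunctionFieldBar N) (heckeBetaBar Qbar N p (algebraMap _ _ c)) = _
  rw [AlgHom.commutes, ← (heckeAlphaBar Qbar N p).commutes c, map_pow]
  exact Algebra.norm_algebraMap _

/-- The norms at two levels agree. -/
theorem heckeNorm_inclusion {N M p : ℕ} [NeZero N] [NeZero M] [NeZero p] (hp : p.Prime)
    (hN : ¬ p ∣ N) (hM : ¬ p ∣ M)
    (ι : modularFunctionFieldBar N →ₐ[Qbar] modularFunctionFieldBar M)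
    (hι : ∀ f, (ι f : LaurentSeries Qbar) = (f : LaurentSeries Qbar))
    (f : modularFunctionFieldBar N) :
    Hecke.heckeNorm Qbar M p (ι f) = ι (Hecke.heckeNorm Qbar N p f) := by
  obtain ⟨ζ, hζ⟩ := HasEnoughRootsOfUnity.exists_primitiveRoot Qbar p
  have hz : IsPrimitiveRoot (hζ.isUnit hp.ne_zero).unit p :=
    IsPrimitiveRoot.coe_units_iff.mp (by rwa [IsUnit.unit_spec])
  refine Subtype.ext (qExpand_injective p ?_)
  rw [Hecke.qExpand_heckeNorm M p hp hM hz, hι, hι, Hecke.qExpand_heckeNorm N p hp hN hz]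

theorem heckeNorm_pow {M p : ℕ} [NeZero M] [NeZero p] (f : modularFunctionFieldBar M) (n : ℕ) :
    Hecke.heckeNorm Qbar M p (f ^ n) = Hecke.heckeNorm Qbar M p f ^ n := by
  induction n with
  | zero =>
    simp only [pow_zero, Hecke.heckeNorm, map_one]
  | succ n ih => rw [pow_succ, heckeNorm_mul, ih, pow_succ]

/-- Pullback commutes with Galois on divisors of degree zero. -/
theorem pullback_galois_comm {K F₀ F : Type*} [Field K] [Field F₀] [Field F] [Algebra K F₀]
    [Algebra K F] [HasPrincipalDivisors K F] (ι : F₀ →ₐ[K] F) (hι : ι.toRingHom.IsIntegral)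
    (hFI : FundamentalIdentityAlong K ι hι) {g : ℕ} {E₀ : Divisor K F₀}
    (hE : EffectiveUpTo K F₀ g E₀) (hdeg : ∀ v : Place K F, v.deg = 1)
    (s₀ : SemilinearAut K F₀) (s : SemilinearAut K F) (hs : ∀ f, ι (s₀ • f) = s • ι f)
    {D : Divisor K F₀} (hD : Divisor.degree D = 0) :
    Divisor.pullbackAlong ι hι (s₀ • D) = s • Divisor.pullbackAlong ι hι D := by
  let := algebraAlong ι
  have := isScalarTower_along ι
  have := isIntegral_along ι hι
  have hpull : Scales (Divisor.pullbackAlong ι hι) (finrankAlong K ι) :=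
    ⟨fun E hE' v => by
      rw [Divisor.pullbackAlong_apply, Finsupp.coe_zero, Pi.zero_apply]
      exact mul_nonneg (Int.natCast_nonneg _) (hE' _),
      fun E => Divisor.degree_pullbackAlong ι hι hFI E⟩
  refine ((Scales.smul s₀).comp hpull).eq_on_degZero hE hdeg (hpull.comp (Scales.smul s))
    (fun E ⟨f, hf, hfE⟩ => ?_) hD
  have h1 : ∀ v, (s₀ • E) v = v.ord (s₀ • f) := fun v => by
    rw [SemilinearAut.divisor_smul_apply, hfE]
    have h := SemilinearAut.ord_smul s₀ (s₀⁻¹ • v) f
    rwa [smul_inv_smul, eq_comm] at h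
  ext w
  simp only [AddMonoidHom.comp_apply, DistribSMul.toAddMonoidHom_apply]
  rw [SemilinearAut.divisor_smul_apply]
  refine (Divisor.pullback_apply_eq_ord (F' := F) h1 w).trans ?_
  refine Eq.trans ?_ (Divisor.pullback_apply_eq_ord (F' := F) hfE (s⁻¹ • w)).symm
  show w.ord (ι (s₀ • f)) = (s⁻¹ • w).ord (ι f)
  rw [hs]
  have h := SemilinearAut.ord_smul s (s⁻¹ • w) (ι f)
  rwa [smul_inv_smul] at h

/-- If the norm to level `N` of `g` has divisor `p` times that of `w`, then a function of level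
`lcm(N, 2)` with the divisor of `g u ^ p` has norm a scalar times a `p`-th power. -/
theorem exists_heckeNorm_eq_mul_pow {N M p : ℕ} [NeZero N] [NeZero M] [NeZero p] (hp : p.Prime)
    (hN : ¬ p ∣ N) (hM : ¬ p ∣ M)
    (ι : modularFunctionFieldBar N →ₐ[Qbar] modularFunctionFieldBar M)
    (hι : ∀ f, (ι f : LaurentSeries Qbar) = (f : LaurentSeries Qbar))
    {fN w : modularFunctionFieldBar N} (hfN : fN ≠ 0) (hw : w ≠ 0)
    (hNfN : ∀ v : Place Qbar (modularFunctionFieldBar N),
      (p : ℤ) * v.ord w = v.ord (Hecke.heckeNorm Qbar N p fN))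
    {f u : modularFunctionFieldBar M} (hf : f ≠ 0) (hu : u ≠ 0)
    (hfu : ∀ v : Place Qbar (modularFunctionFieldBar M),
      v.ord f = v.ord (ι fN) + (p : ℤ) * v.ord u) :
    ∃ (b : Qbar) (Y : modularFunctionFieldBar M),
      Hecke.heckeNorm Qbar M p f = algebraMap Qbar _ b * Y ^ p := by
  have hιfN : ι fN ≠ 0 := (map_ne_zero_iff _ ι.toRingHom.injective).mpr hfN
  have hup : ι fN * u ^ p ≠ 0 := mul_ne_zero hιfN (pow_ne_zero _ hu)
  obtain ⟨c₁, hc₁⟩ := GoodReductionS18.eq_algebraMap_of_ord_eq_zero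
    (u := f * (ι fN * u ^ p)⁻¹) (fun v : Place Qbar (modularFunctionFieldBar M) => by
    rw [v.ord_mul hf (inv_ne_zero hup), v.ord_inv, v.ord_mul hιfN (pow_ne_zero _ hu),
      ord_pow', hfu v]
    ring)
  have hfeq : f = algebraMap Qbar _ c₁ * (ι fN * u ^ p) := by
    rw [hc₁, mul_assoc, inv_mul_cancel₀ hup, mul_one]
  have hN0 : Hecke.heckeNorm Qbar N p fN ≠ 0 := by
    let := algebraAlong (heckeAlphaBar Qbar N p)
    have : Module.Finite (modularFunctionFieldBar N)
        (modularFunctionFieldBar (N * p)) :=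
      Hecke.finiteAlong_of_isFunctionField (heckeAlphaBar Qbar N p)
    show Algebra.norm (modularFunctionFieldBar N) (heckeBetaBar Qbar N p fN) ≠ 0
    exact Algebra.norm_ne_zero_iff.mpr
      ((map_ne_zero_iff _ (heckeBetaBar Qbar N p).toRingHom.injective).mpr hfN)
  obtain ⟨c₂, hc₂⟩ := GoodReductionS18.eq_algebraMap_of_ord_eq_zero
    (u := Hecke.heckeNorm Qbar N p fN * (w ^ p)⁻¹)
    (fun v : Place Qbar (modularFunctionFieldBar N) => by
    rw [v.ord_mul hN0 (inv_ne_zero (pow_ne_zero _ hw)), v.ord_inv, ord_pow', ← hNfN v]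
    ring)
  have hNeq : Hecke.heckeNorm Qbar N p fN = algebraMap Qbar _ c₂ * w ^ p := by
    rw [hc₂, mul_assoc, inv_mul_cancel₀ (pow_ne_zero _ hw), mul_one]
  obtain ⟨c₃, hc₃⟩ := heckeNorm_algebraMap (N := M) (p := p) c₁
  refine ⟨c₃ * c₂, ι w * Hecke.heckeNorm Qbar M p u, ?_⟩
  rw [hfeq, heckeNorm_mul, heckeNorm_mul, heckeNorm_inclusion hp hN hM ι hι, hNeq, hc₃,
    map_mul, map_pow, AlgHom.commutes, heckeNorm_pow, map_mul, mul_pow]
  ring

/-- The class of the pullback of a divisor with fixed class is fixed by the symmetry above. -/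
theorem pic0_smul_pullback {K F₀ F : Type*} [Field K] [Field F₀] [Field F] [Algebra K F₀]
    [Algebra K F] [HasPrincipalDivisors K F] (ι : F₀ →ₐ[K] F) (hι : ι.toRingHom.IsIntegral)
    (hFI : FundamentalIdentityAlong K ι hι) {g : ℕ} {E₀ : Divisor K F₀}
    (hE : EffectiveUpTo K F₀ g E₀) (hdeg : ∀ v : Place K F, v.deg = 1)
    (s₀ : SemilinearAut K F₀) (s : SemilinearAut K F) (hs : ∀ f, ι (s₀ • f) = s • ι f)
    {D : Divisor.degZero (K := K) (F := F₀)} (hx : s₀ • Pic0.mk D = Pic0.mk D) :
    s • (Pic0.mk ⟨_, Divisor.pullbackAlong_mem_degZero ι hι hFI D.2⟩ : Pic0 K F) =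
      Pic0.mk ⟨_, Divisor.pullbackAlong_mem_degZero ι hι hFI D.2⟩ := by
  rw [SemilinearAut.pic0_smul_mk] at hx ⊢
  obtain ⟨v, hv, hvD⟩ := AddSubgroup.mem_addSubgroupOf.mp (QuotientAddGroup.eq.mp hx)
  refine QuotientAddGroup.eq.mpr (AddSubgroup.mem_addSubgroupOf.mpr ?_)
  rw [AddSubgroup.coe_add, AddSubgroup.coe_neg]
  show Divisor.IsPrincipal (-(s • Divisor.pullbackAlong ι hι (D : Divisor K F₀)) +
    Divisor.pullbackAlong ι hι (D : Divisor K F₀))
  rw [← pullback_galois_comm ι hι hFI hE hdeg s₀ s hs (Divisor.mem_degZero.mp D.2), ← map_neg,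
    ← map_add]
  exact Divisor.isPrincipal_pullbackAlong ι hι ⟨v, hv, hvD⟩

/-- **The supersingular core.** -/
theorem eq_zero_of_hecke_eq_zero_of_fixed {N p : ℕ} [NeZero N] [NeZero (Nat.lcm N 2)] [NeZero p]
    (hp : p.Prime) (hp2 : p ≠ 2) (hN : ¬ p ∣ N) {A : ValuationSubring Qbar}
    (hA : A.LiesOverPrime p) (hgood : HasTameModel A (Nat.lcm N 2))
    {ζ : Qbar} (hζ : IsPrimitiveRoot ζ p) {x : JZero N} (hpx : p • x = 0)
    (hT : heckeOperatorAlong Qbar N p x = 0)
    (hfix : ∀ σ ∈ A.inertiaSubgroupIn ℚ, σ ζ = ζ → σ • x = x) : x = 0 := by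
  classical
  set M := Nat.lcm N 2 with hMdef
  have hM : ¬ p ∣ M := fun h => (hp.dvd_mul.mp (h.trans (Nat.lcm_dvd_mul N 2))).elim hN
    fun h2 => hp2 ((Nat.prime_dvd_prime_iff_eq hp Nat.prime_two).mp h2)
  obtain ⟨H, g, c, Hd, Hdb, G, hHd, t, ht, httr, htsep⟩ := hgood
  have := htsep
  have : IsAlgClosed (ResidueField A) := GaloisBasics.residueField_isAlgClosed A
  have : CharP (ResidueField A) p := GaloisBasics.residueField_charP hA hp
  have := GoodReductionS18.isFunctionField_fullC (ResidueField A) M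
  have hle := GoodReductionS18.laurentBaseChange_full_mono (L := Qbar) (Nat.dvd_lcm_left N 2)
  set ι : modularFunctionFieldBar N →ₐ[Qbar] modularFunctionFieldBar M :=
    IntermediateField.inclusion hle with hιdef
  have hι : ∀ f, (ι f : LaurentSeries Qbar) = (f : LaurentSeries Qbar) :=
    fun f => IntermediateField.coe_inclusion hle f
  have hιint := Hecke.isIntegral_of_isFunctionField ι
  have hFI := Hecke.fundamentalIdentityAlong ι hιint
  obtain ⟨c₀, hc₀⟩ := exists_riemannData Qbar (modularFunctionFieldBar N)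
  have R := hc₀ c₀ le_rfl
  obtain ⟨E₀, hE⟩ := R.exists_effectiveUpTo
  obtain ⟨σ₀, hσ₀⟩ := Frobenius.exists_isFrobeniusAt hp hA
  set τ := Specialization.resAut A ⟨σ₀, hσ₀.mem_decompositionSubgroup⟩ with hτ
  have hτap : ∀ a, τ a = a ^ p := Specialization.resAut_of_isFrobeniusAt A hσ₀
  set φ := Specialization.coeffAut M τ with hφ
  obtain ⟨hα, hβ, hP, hfin, hFIT, hNF, hop⟩ := Hecke.heckeOperatorAlong_eq_pic0 Qbar N p
  obtain ⟨D, rfl⟩ := Pic0.mk_surjective x
  have hTD := Divisor.correspondence_mem_degZero _ _ hβ hα hFIT D.2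
  have hT' : Pic0.mk (⟨heckeDivBar hα hβ (D : Divisor Qbar (modularFunctionFieldBar N)), hTD⟩ :
      Divisor.degZero (K := Qbar) (F := modularFunctionFieldBar N)) = 0 := by
    rw [hop] at hT
    exact (Pic0.correspondence_mk _ _ hβ hα hFIT hfin hNF D).symm.trans hT
  -- the reduction vanishes
  have hred0 : G.lowerPicMap ι hιint hFI (Pic0.mk D) = 0 := by
    have h := G.lowerPicMap_congruence ι hιint hFI hE (heckeDivBar hα hβ)
      (Specialization.scales_heckeDivBar hα hβ hFIT) (Hecke.heckeNorm Qbar N p)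
      (fun f E hf hE' => Hecke.heckeDivBar_principal hα hβ hfin hNF hf hE') φ p
      (fun f y hy hy0 =>
        (isSeriesReduction_gauss H).exists_norm_reduction ι hι hp hN τ hτap f y hy hy0) D hTD
    rw [hT', map_zero] at h
    have hp0 : p • (φ⁻¹ • G.lowerPicMap ι hιint hFI (Pic0.mk D)) = 0 := by
      rw [smul_comm, ← map_nsmul, hpx, map_zero]
      exact map_zero (DistribSMul.toAddMonoidHom
        (Pic0 (ResidueField A) (modularFunctionFieldFullC (ResidueField A) M)) φ⁻¹)
    rw [hp0, add_zero] at h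
    exact (smul_eq_zero_iff_eq φ).mp h.symm
  -- the pullback
  set y : Pic0 Qbar (modularFunctionFieldBar M) :=
    Pic0.mk ⟨_, Divisor.pullbackAlong_mem_degZero ι hιint hFI D.2⟩ with hydef
  suffices hy : y = 0 by
    rw [hydef, Pic0.mk, QuotientAddGroup.eq_zero_iff, AddSubgroup.mem_addSubgroupOf] at hy
    rw [Pic0.mk, ← QuotientAddGroup.mk_nsmul, QuotientAddGroup.eq_zero_iff,
      AddSubgroup.mem_addSubgroupOf, AddSubgroupClass.coe_nsmul] at hpx
    rw [Pic0.mk, QuotientAddGroup.eq_zero_iff, AddSubgroup.mem_addSubgroupOf]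
    exact GoodReductionS18.isPrincipal_of_pullbackAlong_tame Qbar
      (GoodReductionS18.tameStep_lcm_two N p) hp.ne_zero ι hιint hι _ hpx hy
  obtain ⟨π₀, ε, hπ₀ζ, hπ₀, hπ₀0, hε, hpε⟩ := exists_pi_zero hA hp hζ
  refine GoodModel.supersingular_core G hp hπ₀ hπ₀0 hε hpε
    (isInertiaLike_gauss H G hA hp hζ hπ₀ζ hHd ht httr) φ (Hecke.heckeNorm Qbar M p)
    (fun h => ?_) (fun f E hf hEy hfdiv => ?_) ?_ ?_ ?_
  · -- the norm modulo `π₀ ^ (p + 1)`
    obtain ⟨z, hz1, hz2⟩ := exists_norm_residue H hp hM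
      (τ := π₀ ^ p) (by rw [map_pow, hπ₀, zero_pow hp.ne_zero])
      (by push_cast; exact pow_ne_zero _ hπ₀0) h
    refine ⟨z, hz1, Subtype.ext ?_⟩
    rw [hz2]
    push_cast
    rw [Specialization.coe_coeffAut_inv_smul]
    have : ExpChar (ResidueField A) p := ExpChar.prime hp
    rw [Specialization.pow_char_eq_qExpand p]
    congr 1
    ext n
    simp [frobenius_def, ← hτap]
  · -- the norm of a function of divisor `p • E`
    rw [Pic0.mk, QuotientAddGroup.eq_zero_iff, AddSubgroup.mem_addSubgroupOf] at hT'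
    obtain ⟨w, hw, hwD⟩ := hT'
    rw [Pic0.mk, ← QuotientAddGroup.mk_nsmul, QuotientAddGroup.eq_zero_iff,
      AddSubgroup.mem_addSubgroupOf, AddSubgroupClass.coe_nsmul] at hpx
    obtain ⟨fN, hfN, hfND⟩ := hpx
    obtain ⟨u, hu, huD⟩ := AddSubgroup.mem_addSubgroupOf.mp (QuotientAddGroup.eq.mp hEy.symm)
    have hιD : ∀ v, (p : ℤ) * Divisor.pullbackAlong ι hιint (D : Divisor Qbar
        (modularFunctionFieldBar N)) v = v.ord (ι fN) := fun v => by
      rw [← nsmul_eq_mul, ← Finsupp.smul_apply, ← map_nsmul]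
      let := algebraAlong ι
      have := isScalarTower_along ι
      have := isIntegral_along ι hιint
      exact Divisor.pullback_apply_eq_ord hfND v
    refine exists_heckeNorm_eq_mul_pow hp hN hM ι hι hfN hw (fun v => ?_) hf hu fun v => ?_
    · rw [← hwD, ← Hecke.heckeDivBar_principal hα hβ hfin hNF hfN hfND v, map_nsmul,
        Finsupp.smul_apply, nsmul_eq_mul]
    · rw [← hιD v, hfdiv v]
      have hv := huD v
      rw [AddSubgroup.coe_add, AddSubgroup.coe_neg, Finsupp.add_apply, Finsupp.neg_apply] at hv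
      rw [← hv]
      ring
  · rw [hydef, Pic0.mk, ← QuotientAddGroup.mk_nsmul, QuotientAddGroup.eq_zero_iff,
      AddSubgroup.mem_addSubgroupOf, AddSubgroupClass.coe_nsmul]
    rw [Pic0.mk, ← QuotientAddGroup.mk_nsmul, QuotientAddGroup.eq_zero_iff,
      AddSubgroup.mem_addSubgroupOf, AddSubgroupClass.coe_nsmul] at hpx
    show Divisor.IsPrincipal (p • Divisor.pullbackAlong ι hιint _)
    rw [← map_nsmul]
    exact Divisor.isPrincipal_pullbackAlong ι hιint hpx
  · rintro _ ⟨σ, hσ, rfl⟩
    have hx := hfix σ hσ.1 hσ.2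
    rw [galois_smul_pic0_def] at hx
    rw [hydef]
    refine pic0_smul_pullback ι hιint hFI hE FunctionField.deg_eq_one
      (arithmeticGalois (modularFunctionFieldFull N) σ) _ (fun f => Subtype.ext ?_) hx
    rw [coe_arithmeticGalois_smul, hι, hι, coe_arithmeticGalois_smul]
  · rw [hydef, G.picMap_mk]
    exact hred0

end Fermat.Agent.Supersingular
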