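import Fermat.Agent.GoodReduction.Criterion
import Fermat.Agent.GoodReduction.Injective
import Mathlib.Algebra.CharP.Lemmas

/-!
# Pole bound for functions with divisor `p (E - E₀)`

Expanding `(1 + δ / a)^p` at the reduction of two congruent points: if `f = 1 + τ h` and
`|τ| ≠ |π₀^p|`, the residue of `h` has at most a simple pole.
-/

set_option autoImplicit false

noncomputable section

open AlgebraicCurve Fermat.Agent.GoodReduction

namespace Fermat.Agent.Supersingular

/-- The binomial expansion of `(1 + z)^p` at a prime exponent. -/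
theorem exists_one_add_pow_prime {R : Type*} [CommRing R] {p : ℕ} (hp : p.Prime) (z : R) :
    ∃ r, (1 + z) ^ p = 1 + z ^ p + p * z * (1 + z * r) := by
  classical
  have h1 : 1 ∈ Finset.Ioo 0 p := Finset.mem_Ioo.mpr ⟨Nat.one_pos, hp.one_lt⟩
  rw [add_comm 1 z, add_pow_prime_eq hp, ← Finset.add_sum_erase _ _ h1]
  refine ⟨∑ k ∈ (Finset.Ioo 0 p).erase 1, z ^ (k - 2) * ↑(p.choose k / p), ?_⟩
  have h2 : ∑ k ∈ (Finset.Ioo 0 p).erase 1, z ^ (k - 1) * (1 : R) ^ (p - k - 1) *
      ↑(p.choose k / p) = z * ∑ k ∈ (Finset.Ioo 0 p).erase 1, z ^ (k - 2) * ↑(p.choose k / p) := by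
    rw [Finset.mul_sum]
    refine Finset.sum_congr rfl fun k hk => ?_
    simp only [Finset.mem_erase, Finset.mem_Ioo] at hk
    rw [one_pow, mul_one, show k - 1 = k - 2 + 1 by omega, pow_succ]
    ring
  rw [h2, Nat.choose_one_right, Nat.div_self hp.pos]
  simp
  ring

variable {K k F κ : Type*} [Field K] [Field k] [Field F] [Field κ] [Algebra K F] [Algebra k κ]
variable {A : ValuationSubring K} {π : A →+* k} {red : Reduction F κ A π}

include red in
/-- One of two scalars is a multiple of the other, by a nonunit in the second case. -/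
theorem exists_mul_or (x : K) {y : K} (hy : y ≠ 0) :
    (∃ μ : A, x = μ * y) ∨ ∃ μ : A, π μ = 0 ∧ y = μ * x := by
  rcases A.mem_or_inv_mem (x / y) with h | h
  · exact Or.inl ⟨⟨_, h⟩, (div_mul_cancel₀ x hy).symm⟩
  rcases eq_or_ne x 0 with rfl | hx
  · exact Or.inl ⟨0, by simp⟩
  by_cases hu : IsUnit (⟨(x / y)⁻¹, h⟩ : A)
  · obtain ⟨u, hu⟩ := hu
    refine Or.inl ⟨(↑u⁻¹ : A), ?_⟩
    have h1 : ((u : A) : K) * ((↑u⁻¹ : A) : K) = 1 := congrArg Subtype.val u.mul_inv
    rw [hu] at h1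
    have h2 : ((↑u⁻¹ : A) : K) = x / y := by simpa using eq_inv_of_mul_eq_one_right h1
    rw [h2, div_mul_cancel₀ x hy]
  · refine Or.inr ⟨⟨_, h⟩, (red.map_eq_zero_iff _).mpr hu, ?_⟩
    show y = (x / y)⁻¹ * x
    rw [inv_div, div_mul_cancel₀ y hx]

namespace GoodModel

variable {g : ℕ} {c : ℤ} {H : Divisor K F} {Hb : Divisor k κ}
variable (G : GoodModel red g c H Hb)

include G

/-- A function reducing to a uniformiser at `Q` takes small values at every point over `Q`. -/
theorem exists_value_of_uniformiser {Q : Place k κ} {a : red.V} (haQ : Q.ord (red.res a) = 1)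
    (hreg : ∀ P, G.placeMap P = Q → 0 ≤ P.ord (a : F)) {P₁ : Place K F}
    (hP₁ : G.placeMap P₁ = Q) :
    ∃ δ : A, π δ = 0 ∧ red.res (a - red.algA δ) = red.res a ∧
      ∀ P, G.placeMap P = Q → P.ord ((a - red.algA δ : red.V) : F) = Finsupp.single P₁ (1 : ℤ) P := by
  classical
  have ha : red.res a ≠ 0 := fun h => by simp [h] at haQ
  obtain ⟨γ, hγ⟩ := exists_value P₁ (G.riemann.deg_one P₁) (hreg P₁ hP₁)
  -- a multiple of `a - γ` regular on the fibre has a residue vanishing at `Q`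
  have key : ∀ (e : K) (z : red.V), e ≠ 0 → red.res z ≠ 0 →
      (z : F) = algebraMap K F e * ((a : F) - algebraMap K F γ) → 1 ≤ Q.ord (red.res z) ∧
      ∀ P, G.placeMap P = Q → 0 ≤ G.riemann.div (z : F) P := by
    intro e z he hz hzF
    have hsub : (a : F) - algebraMap K F γ ≠ 0 := fun h0 =>
      red.coe_ne_zero hz (by rw [hzF, h0, mul_zero])
    have hfib : ∀ P, G.placeMap P = Q → 0 ≤ G.riemann.div (z : F) P := by
      intro P hP
      rw [G.riemann.div_apply, hzF, P.ord_mul (by simp [he]) hsub, ord_algebraMap_eq_zero,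
        zero_add]
      exact le_ord_sub P (Or.inr (hreg P hP)) (Or.inr (by rw [ord_algebraMap_eq_zero])) hsub
    refine ⟨?_, hfib⟩
    have hle := G.le_divMap_apply (X := G.riemann.div (z : F)) P₁
      (fun P' hP' => hfib P' (hP'.trans hP₁))
    rw [hP₁, G.divMap_div hz, G.riemann'.div_apply, G.riemann.div_apply, hzF,
      P₁.ord_mul (by simp [he]) hsub, ord_algebraMap_eq_zero, zero_add] at hle
    rcases hγ with h | h
    · exact absurd (sub_eq_zero.mpr h) hsub
    · omega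
  have hγA : γ ∈ A := by
    by_contra hγA
    obtain ⟨μ, hμ⟩ | ⟨μ, hμ0, hμ⟩ := exists_mul_or (red := red) γ (one_ne_zero (α := K))
    · exact hγA (by rw [hμ, mul_one]; exact μ.2)
    have hμne : (μ : K) ≠ 0 := fun h => by simp [h] at hμ
    have hres : red.res (red.algA μ * a - 1) = -1 := by
      rw [map_sub, map_mul, red.res_algA, hμ0]
      simp
    have h1 := (key (μ : K) (red.algA μ * a - 1) hμne (by rw [hres]; simp) (by
      show algebraMap K F μ * (a : F) - 1 = _
      rw [mul_sub, ← map_mul, ← hμ, map_one])).1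
    rw [hres, ord_neg', Place.ord_one] at h1
    omega
  set a' : red.V := a - red.algA ⟨γ, hγA⟩ with ha'
  have ha'res : red.res a' = red.res a - algebraMap k κ (π ⟨γ, hγA⟩) := by
    rw [ha', map_sub, red.res_algA]
  have ha'ne : red.res a' ≠ 0 := by
    intro h0
    rw [ha'res, sub_eq_zero] at h0
    rw [h0, ord_algebraMap_eq_zero] at haQ
    omega
  obtain ⟨hQ1, hfib⟩ := key 1 a' one_ne_zero ha'ne (by rw [map_one, one_mul]; rfl)
  have hγ0 : π ⟨γ, hγA⟩ = 0 := by
    by_contra hne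
    have hd : red.res a - red.res a' = algebraMap k κ (π ⟨γ, hγA⟩) := by rw [ha'res]; ring
    have h2 := le_ord_sub Q (Or.inr (show (1 : ℤ) ≤ Q.ord (red.res a) by omega)) (Or.inr hQ1)
      (by rw [hd]; simpa using hne)
    rw [hd, ord_algebraMap_eq_zero] at h2
    omega
  have hres : red.res a' = red.res a := by rw [ha'res, hγ0, map_zero, sub_zero]
  refine ⟨⟨γ, hγA⟩, hγ0, hres, fun P hP => ?_⟩
  rw [← G.riemann.div_apply]
  refine G.fibre_eq (fun P' hP' => hfib P' (hP'.trans hP₁)) ?_ ?_ P (hP.trans hP₁.symm)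
  · rw [hP₁, G.divMap_div ha'ne, G.riemann'.div_apply, hres, haQ]
  · rw [G.riemann.div_apply]
    rcases hγ with h | h
    · exact absurd (sub_eq_zero.mpr h) (red.coe_ne_zero ha'ne)
    · exact h

omit G in
/-- When the linear term of the expansion dominates, `h` has at most a simple pole at `Q`. -/
theorem le_ord_res_of_linear
    {p : ℕ} (hp : p.Prime) {π₀ ε : A} (hπ₀0 : (π₀ : K) ≠ 0) (hε : π ε ≠ 0)
    {Q : Place k κ} {a : red.V} (haQ : Q.ord (red.res a) = 1) {δ ν τ : A}
    {h u inv s W : red.V} (hures : red.res u = 1) (hsres : red.res s = (red.res a)⁻¹)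
    (hWeq : W = red.algA τ * (h * u) + red.algA (δ ^ p) * inv ^ p
      + red.algA ((p : A) * δ) * s)
    (hpd : (p : A) * δ = ε * ν * π₀ ^ p) (hdp : δ ^ p = ν ^ p * π₀ ^ p)
    (hreg : ∀ (e : A) (y : red.V), (e : K) ≠ 0 → W = red.algA e * y → 0 ≤ Q.ord (red.res y))
    (hν : (δ : K) = ν * π₀) (hτne : (τ : K) ≠ 0) (hν0 : π ν = 0) :
    -1 ≤ Q.ord (red.res h) := by
  have hτcast : ∀ {x y : A}, (x : K) = (y : K) → x = y := fun h => Subtype.ext h
  rcases eq_or_ne (ν : K) 0 with hνz | hνz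
  · have hδz : δ = 0 := hτcast (by rw [hν, hνz, zero_mul]; rfl)
    have h1 := hreg τ (h * u) hτne (by
      rw [hWeq, hδz, zero_pow hp.ne_zero, mul_zero]
      simp)
    rw [map_mul, hures, mul_one] at h1
    omega
  obtain ⟨ε', hε'⟩ : ∃ ε' : A, ε' * ε = 1 := by
    have : IsUnit ε := by
      by_contra hnu
      exact hε ((red.map_eq_zero_iff ε).mpr hnu)
    obtain ⟨u, rfl⟩ := this
    exact ⟨↑u⁻¹, u.inv_mul⟩
  obtain ⟨q, hq⟩ : ∃ q, p = q + 1 + 1 := ⟨p - 2, by have := hp.two_le; omega⟩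
  have he0 : (((ε * ν * π₀ ^ p : A)) : K) ≠ 0 := by
    push_cast
    refine mul_ne_zero (mul_ne_zero ?_ hνz) (pow_ne_zero p hπ₀0)
    intro h0
    rw [show ε = 0 from hτcast h0, map_zero] at hε
    exact hε rfl
  have hνp : ν ^ p * π₀ ^ p = ν ^ (q + 1) * ε' * (ε * ν * π₀ ^ p) := by
    rw [hq]
    linear_combination (-(ν ^ (q + 1 + 1) * π₀ ^ (q + 1 + 1))) * hε'
  rcases exists_mul_or (red := red) (τ : K) he0 with ⟨l, hl⟩ | ⟨l, hl0, hl⟩
  · have h1 := hreg (ε * ν * π₀ ^ p)
      (red.algA l * (h * u) + red.algA (ν ^ (q + 1) * ε') * inv ^ p + s) he0 (by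
        rw [hWeq, hpd, hdp, hνp,
          show τ = l * (ε * ν * π₀ ^ p) from hτcast (by rw [hl]; rfl)]
        simp only [map_mul]
        ring)
    simp only [map_add, map_mul, map_pow, red.res_algA, hures, hν0, map_zero, zero_mul, mul_one,
      add_zero, zero_pow (Nat.succ_ne_zero q), hsres] at h1
    by_cases hl0 : π l = 0
    · rw [hl0, map_zero, zero_mul, zero_add, Q.ord_inv, haQ] at h1
      omega
    rcases eq_or_ne (red.res h) 0 with hh0 | hh0
    · simp [hh0]
    have hne : algebraMap k κ (π l) * red.res h ≠ 0 := mul_ne_zero (by simpa using hl0) hh0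
    have h2 := le_ord_sub Q (n := -1)
      (f := algebraMap k κ (π l) * red.res h + (red.res a)⁻¹) (f' := (red.res a)⁻¹)
      (Or.inr (by omega)) (Or.inr (by rw [Q.ord_inv, haQ]))
      (by rwa [add_sub_cancel_right])
    rw [add_sub_cancel_right, Q.ord_mul (by simpa using hl0) hh0, ord_algebraMap_eq_zero] at h2
    omega
  · have hτ0 : (τ : K) ≠ 0 := fun h => he0 (by rw [hl, h, mul_zero])
    have hl' : ε * ν * π₀ ^ p = l * τ := hτcast (by rw [hl]; rfl)
    have h1 := hreg τ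
      (h * u + red.algA (ν ^ (q + 1) * ε' * l) * inv ^ p + red.algA l * s) hτ0 (by
        rw [hWeq, hpd, hdp, hνp, hl']
        simp only [map_mul]
        ring)
    simp only [map_add, map_mul, map_pow, red.res_algA, hures, hν0, hl0, map_zero, zero_mul,
      mul_zero, mul_one, add_zero] at h1
    omega

omit G in
/-- The top term of the expansion cannot dominate. -/
theorem false_of_top
    {p : ℕ} (hp : p.Prime) {π₀ ε : A} (hπ₀0 : (π₀ : K) ≠ 0) (hε : π ε ≠ 0)
    {Q : Place k κ} {a : red.V} (haQ : Q.ord (red.res a) = 1) {δ ν τ : A}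
    {h u inv s W : red.V} (hsres : red.res s = (red.res a)⁻¹)
    (hWeq : W = red.algA τ * (h * u) + red.algA (δ ^ p) * inv ^ p
      + red.algA ((p : A) * δ) * s)
    (hpd : (p : A) * δ = ε * ν * π₀ ^ p) (hdp : δ ^ p = ν ^ p * π₀ ^ p)
    (hreg : ∀ (e : A) (y : red.V), (e : K) ≠ 0 → W = red.algA e * y → 0 ≤ Q.ord (red.res y))
    (hinvres : red.res inv = (red.res a)⁻¹) {μ : A} (hτ : τ = μ * π₀ ^ p) (hμ0 : π μ = 0)
    (hν0 : π ν ≠ 0) : False := by
  have hares : red.res a ≠ 0 := fun h => by simp [h] at haQ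
  have hπ₀p : ((π₀ ^ p : A) : K) ≠ 0 := by push_cast; exact pow_ne_zero p hπ₀0
  have hinv1 : ∀ e : k, e ≠ 0 → algebraMap k κ e * (red.res a)⁻¹ ≠ 0 ∧
      Q.ord (algebraMap k κ e * (red.res a)⁻¹) = -1 := fun e he => by
    refine ⟨mul_ne_zero (by simpa using he) (inv_ne_zero hares), ?_⟩
    rw [Q.ord_mul (by simpa using he) (inv_ne_zero hares), ord_algebraMap_eq_zero, Q.ord_inv, haQ]
    ring
  have h1 := hreg (π₀ ^ p) (red.algA μ * (h * u) + red.algA (ν ^ p) * inv ^ p
    + red.algA (ε * ν) * s) hπ₀p (by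
      rw [hWeq, hpd, hdp, hτ]; simp only [map_mul]; ring)
  simp only [map_add, map_mul, map_pow, red.res_algA, hμ0, map_zero, zero_mul, zero_add,
    hinvres, hsres] at h1
  obtain ⟨hne, hord⟩ := hinv1 (π ε * π ν) (mul_ne_zero hε hν0)
  rw [map_mul] at hne hord
  have hne' : algebraMap k κ (π ν) * (red.res a)⁻¹ ≠ 0 := (hinv1 _ hν0).1
  have htop : algebraMap k κ (π ν) ^ p * (red.res a)⁻¹ ^ p ≠ 0 := by
    rw [← mul_pow]; exact pow_ne_zero _ hne'
  have h2 := le_ord_sub Q (n := -1)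
    (f := algebraMap k κ (π ν) ^ p * (red.res a)⁻¹ ^ p
      + algebraMap k κ (π ε) * algebraMap k κ (π ν) * (red.res a)⁻¹)
    (f' := algebraMap k κ (π ε) * algebraMap k κ (π ν) * (red.res a)⁻¹)
    (Or.inr (by omega)) (Or.inr hord.ge) (by rwa [add_sub_cancel_right])
  rw [add_sub_cancel_right, ← mul_pow, ord_pow', (hinv1 _ hν0).2] at h2
  have := hp.two_le
  omega

omit G in
/-- If `f` has divisor `p D` and `x` has divisor `-D` on a set of places, then `f x ^ p - 1` is
regular there. -/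
theorem eq_zero_or_ord_nonneg {p : ℕ} {E E₀ : Divisor K F} {f x W : F} {S : Set (Place K F)}
    (hf0 : f ≠ 0) (hx0 : x ≠ 0) (hW : W = f * x ^ p - 1)
    (hdiv : ∀ P : Place K F, P.ord f = (p : ℤ) * (E P - E₀ P))
    (hx : ∀ P ∈ S, P.ord x = E₀ P - E P) : W = 0 ∨ ∀ P ∈ S, 0 ≤ P.ord W := by
  rcases eq_or_ne W 0 with h0 | h0
  · exact Or.inl h0
  refine Or.inr fun P hP => ?_
  have hord : P.ord (f * x ^ p) = 0 := by
    rw [P.ord_mul hf0 (pow_ne_zero _ hx0), ord_pow', hdiv, hx P hP]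
    ring
  rw [hW] at h0 ⊢
  exact le_ord_sub P (Or.inr hord.ge) (Or.inr P.ord_one.ge) h0

/-- If `W = e y` is regular over `Q` then so is the reduction of `y`. -/
theorem ord_res_nonneg_of_eq_mul {Q : Place k κ} {W : red.V}
    (hWfib : (W : F) = 0 ∨ ∀ P, G.placeMap P = Q → 0 ≤ P.ord (W : F)) {e : A} {y : red.V}
    (he : (e : K) ≠ 0) (hy : W = red.algA e * y) : 0 ≤ Q.ord (red.res y) := by
  refine G.ord_res_nonneg (hWfib.imp (fun h0 => ?_) fun hP P hPQ => ?_)
  · rw [hy] at h0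
    refine (mul_eq_zero.mp h0).resolve_left ?_
    show algebraMap K F (e : K) ≠ 0
    simpa using he
  · rcases eq_or_ne (y : F) 0 with h0 | h0
    · simp [h0]
    have h1 := hP P hPQ
    rw [hy, show ((red.algA e * y : red.V) : F) = algebraMap K F e * (y : F) from rfl,
      P.ord_mul (by simpa using he) h0, ord_algebraMap_eq_zero, zero_add] at h1
    exact h1

/-- **The pole bound.** -/
theorem pole_bound {p : ℕ} (hp : p.Prime) {π₀ ε : A} (hπ₀ : π π₀ = 0) (hπ₀0 : (π₀ : K) ≠ 0)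
    (hε : π ε ≠ 0) (hpε : (p : K) = ε * (π₀ : K) ^ (p - 1))
    {E E₀ : Divisor K F} {P₀ P₁ : Place K F} {Q : Place k κ}
    (hE₀ : ∀ P, G.placeMap P = Q → E₀ P = Finsupp.single P₀ (1 : ℤ) P)
    (hE : ∀ P, G.placeMap P = Q → E P = Finsupp.single P₁ (1 : ℤ) P)
    {a : red.V} (haQ : Q.ord (red.res a) = 1)
    (haP : ∀ P, G.placeMap P = Q → P.ord (a : F) = Finsupp.single P₀ (1 : ℤ) P)
    {δ : A} (hδres : red.res (a - red.algA δ) = red.res a)
    (hδP : ∀ P, G.placeMap P = Q →
      P.ord ((a - red.algA δ : red.V) : F) = Finsupp.single P₁ (1 : ℤ) P)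
    {ν : A} (hν : (δ : K) = ν * π₀) {f h : red.V} {τ : A} (hf0 : (f : F) ≠ 0)
    (hdiv : ∀ P : Place K F, P.ord (f : F) = (p : ℤ) * (E P - E₀ P))
    (hfh : f = 1 + red.algA τ * h) (hτne : (τ : K) ≠ 0) :
    -1 ≤ Q.ord (red.res h) ∨ ∃ μ : A, π μ ≠ 0 ∧ (τ : K) = μ * (π₀ : K) ^ p := by
  classical
  set a' : red.V := a - red.algA δ with ha'
  have hares : red.res a ≠ 0 := fun h => by simp [h] at haQ
  have ha'ne : red.res a' ≠ 0 := by rw [hδres]; exact hares
  set inv : red.V := ⟨_, red.inv_mem ha'ne⟩ with hinv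
  have ha'inv : a' * inv = 1 := Subtype.ext (mul_inv_cancel₀ (red.coe_ne_zero ha'ne))
  have hinvres : red.res inv = (red.res a)⁻¹ := by
    refine eq_inv_of_mul_eq_one_right ?_
    rw [← hδres, ← map_mul, ha'inv, map_one]
  have hzero : red.res (red.algA δ) = 0 := by
    have hδ0 : π δ = 0 := by
      rw [show δ = ν * π₀ from Subtype.ext hν, map_mul, hπ₀, mul_zero]
    rw [red.res_algA, hδ0, map_zero]
  have hainv : a * inv = 1 + red.algA δ * inv := by
    rw [← ha'inv, ha']; ring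
  set u : red.V := (a * inv) ^ p with hu
  have hures : red.res u = 1 := by
    rw [hu, hainv, map_pow, map_add, map_one, map_mul, hzero, zero_mul, add_zero, one_pow]
  -- the regular function
  set W : red.V := f * u - 1 with hW
  have hWfib := eq_zero_or_ord_nonneg (S := {P | G.placeMap P = Q}) hf0 (W := (W : F))
    (x := (a : F) * (a' : F)⁻¹) (mul_ne_zero (red.coe_ne_zero hares)
      (inv_ne_zero (red.coe_ne_zero ha'ne))) rfl hdiv fun P hP => by
      rw [P.ord_mul (red.coe_ne_zero hares) (inv_ne_zero (red.coe_ne_zero ha'ne)), P.ord_inv,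
        haP P hP, hδP P hP, hE P hP, hE₀ P hP]
      ring
  obtain ⟨r, hr⟩ := exists_one_add_pow_prime hp (red.algA δ * inv)
  set s : red.V := inv * (1 + red.algA δ * inv * r) with hs
  have hsres : red.res s = (red.res a)⁻¹ := by
    rw [hs, map_mul, map_add, map_mul, map_mul, hzero, map_one, hinvres]
    ring
  have hWeq : W = red.algA τ * (h * u) + red.algA (δ ^ p) * inv ^ p
      + red.algA ((p : A) * δ) * s := by
    rw [hW, hfh, map_pow, map_mul, map_natCast, hs]
    have : u = 1 + (red.algA δ * inv) ^ p + p * (red.algA δ * inv) *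
        (1 + red.algA δ * inv * r) := by rw [hu, hainv, hr]
    rw [add_mul, one_mul, mul_assoc]
    linear_combination this
  have hreg := fun e y => ord_res_nonneg_of_eq_mul G (e := e) (y := y) hWfib
  have hpA : (p : A) = ε * π₀ ^ (p - 1) := Subtype.ext (by push_cast; exact hpε)
  have hpd : (p : A) * δ = ε * ν * π₀ ^ p := by
    rw [hpA, show δ = ν * π₀ from Subtype.ext hν]
    conv_rhs => rw [← pow_sub_one_mul hp.ne_zero]
    ring
  have hdp : δ ^ p = ν ^ p * π₀ ^ p := by rw [show δ = ν * π₀ from Subtype.ext hν, mul_pow]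
  have hτcast : ∀ {x y : A}, (x : K) = (y : K) → x = y := fun h => Subtype.ext h
  rcases exists_mul_or (red := red) (τ : K) (pow_ne_zero p hπ₀0) with ⟨μ, hμ⟩ | ⟨μ, hμ0, hμ⟩
  swap
  · -- `τ` dominates
    left
    have hτ0 : (τ : K) ≠ 0 := fun h => pow_ne_zero p hπ₀0 (by rw [hμ, h, mul_zero])
    have hπp : π₀ ^ p = μ * τ := hτcast (by push_cast; exact hμ)
    have h1 := hreg τ (h * u + red.algA (μ * ν ^ p) * inv ^ p + red.algA (μ * (ε * ν)) * s) hτ0
      (by rw [hWeq, hpd, hdp, hπp]; simp only [map_mul]; ring)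
    simp only [map_add, map_mul, red.res_algA, hures, hμ0, map_zero, zero_mul, mul_one,
      add_zero] at h1
    omega
  by_cases hμ0 : π μ = 0
  swap
  · exact Or.inr ⟨μ, hμ0, hμ⟩
  left
  have hτ : τ = μ * π₀ ^ p := hτcast (by push_cast; exact hμ)
  by_cases hν0 : π ν = 0
  · exact le_ord_res_of_linear hp hπ₀0 hε haQ hures hsres hWeq hpd hdp hreg hν hτne hν0
  · exact (false_of_top hp hπ₀0 hε haQ hsres hWeq hpd hdp hreg hinvres hτ hμ0 hν0).elim

end GoodModel

end Fermat.Agent.Supersingular
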