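import Fermat.Agent.Supersingular.Main

/-!
# Tame models from a rational Hauptmodul

A good Gauss model polarised by the pole divisor of a function with rational integer expansion is
fixed by the arithmetic Galois action, hence is a tame model.
-/

set_option autoImplicit false

noncomputable section

open AlgebraicCurve ModularCurve IsLocalRing
open Fermat.Agent.GoodReduction Fermat.Agent.GoodReductionModular
open Fermat.Agent.GaloisBasics (Qbar GalQ)
open scoped IntermediateField

namespace Fermat.Agent.Supersingular

/-- The pole divisor of a fixed function is fixed. -/
theorem smul_poleDiv {K F : Type*} [Field K] [Field F] [Algebra K F]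
    [FunctionField.IsFunctionField K F] (s : SemilinearAut K F) {x : F} (hx : s • x = x) :
    s • FunctionField.poleDiv K x = FunctionField.poleDiv K x := by
  ext v
  rw [SemilinearAut.divisor_smul_apply]
  have h := SemilinearAut.ord_smul s (s⁻¹ • v) x
  rw [smul_inv_smul, hx] at h
  simp only [FunctionField.poleDiv, Finsupp.sup_apply, Finsupp.neg_apply,
    FunctionField.divFun_apply, Finsupp.zero_apply, h]

/-- A function with rational integer expansion is fixed by the arithmetic Galois action. -/
theorem galois_smul_of_intSeries {M : ℕ} (σ : GalQ) {x : modularFunctionFieldBar M}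
    {s : LaurentSeries ℤ}
    (hs : (x : LaurentSeries Qbar) = coeffMap (Int.castRingHom Qbar) s) :
    arithmeticGalois (modularFunctionFieldFull M) σ • x = x := by
  refine Subtype.ext ?_
  rw [coe_arithmeticGalois_smul, hs, coeffMap_coeffMap]
  exact coeffMap_congr (Subsingleton.elim _ _) s

/-- A good Gauss model polarised by the poles of a function with rational integer expansion. -/
theorem hasTameModel_of_poleDiv {A : ValuationSubring Qbar} {M : ℕ} [NeZero M]
    {H : GaussInput (modularFunctionFieldBar M)
      (modularFunctionFieldFullC (ResidueField A) M) (residue A)} {g : ℕ} {c : ℤ}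
    (x : (gaussReduction H).V) {s : LaurentSeries ℤ}
    (hs : ((x : modularFunctionFieldBar M) : LaurentSeries Qbar)
      = coeffMap (Int.castRingHom Qbar) s)
    {Db : Divisor (ResidueField A) (modularFunctionFieldFullC (ResidueField A) M)}
    (G : GoodModel (gaussReduction H) g c
      (FunctionField.poleDiv Qbar (x : modularFunctionFieldBar M)) Db)
    (ht : Transcendental (ResidueField A) ((gaussReduction H).res x))
    (hsep : Algebra.IsSeparable (ResidueField A)⟮(gaussReduction H).res x⟯
      (modularFunctionFieldFullC (ResidueField A) M)) :
    HasTameModel A M :=
  ⟨H, g, c, _, Db, G, fun σ _ => smul_poleDiv _ (galois_smul_of_intSeries σ hs), x,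
    fun σ => galois_smul_of_intSeries σ hs, ht, hsep⟩

end Fermat.Agent.Supersingular
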