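import Fermat.Agent.Supersingular.Main
import Mathlib.GroupTheory.PGroup
import Fermat.Prelude.Def_ModularCurve_HeckeModule

/-!
# No unipotent inertia on the kernel of `T_p`

A finite subgroup of `J₀(N)[p]` killed by `T_p`, stable under inertia fixing `ζ_p` and on which
every such element satisfies `(σ - 1) ^ 2 = 0`, is zero.
-/

set_option autoImplicit false

noncomputable section

open AlgebraicCurve ModularCurve
open Fermat.Agent.GaloisBasics (Qbar GalQ)

namespace Fermat.Agent.Supersingular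

theorem pow_smul_eq_of_sq {G W : Type*} [Monoid G] [AddCommGroup W] [DistribMulAction G W]
    (s : G) {w : W} (h : s • (s • w - w) = s • w - w) (n : ℕ) :
    s ^ n • w = w + n • (s • w - w) := by
  induction n with
  | zero => simp
  | succ n ih =>
    rw [pow_succ', mul_smul, ih, smul_add, smul_comm s n (s • w - w), h, succ_nsmul]
    abel

/-- The inertia elements fixing `ζ`, as a subgroup. -/
def tameSubgroup (A : ValuationSubring Qbar) (ζ : Qbar) : Subgroup GalQ :=
  A.inertiaSubgroupIn ℚ ⊓ MulAction.stabilizer GalQ ζ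

/-- Membership in the tame subgroup. -/
theorem mem_tameSubgroup {A : ValuationSubring Qbar} {ζ : Qbar} {σ : GalQ} :
    σ ∈ tameSubgroup A ζ ↔ σ ∈ tameKernel A ζ := Iff.rfl

/-- A `p`-group acting on a nontrivial finite `p`-torsion group fixes a nonzero element. -/
theorem exists_fixed_ne_zero {G W : Type*} [Group G] [AddCommGroup W] [Finite W]
    [DistribMulAction G W] {p : ℕ} (hp : p.Prime) (hpW : ∀ w : W, p • w = 0)
    (hsq : ∀ (g : G) (w : W), g • (g • w - w) = g • w - w) (hW : ∃ w : W, w ≠ 0) :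
    ∃ w : W, w ≠ 0 ∧ ∀ g : G, g • w = w := by
  have : Fact p.Prime := ⟨hp⟩
  let P := (MulAction.toPermHom G W).range
  have hP : IsPGroup p P := fun x => by
    obtain ⟨g, hg⟩ := x.2
    refine ⟨1, Subtype.ext (Equiv.ext fun w => ?_)⟩
    rw [SubgroupClass.coe_pow, ← hg, ← map_pow]
    show g ^ (p ^ 1) • w = w
    rw [pow_one, pow_smul_eq_of_sq g (hsq g w), hpW, add_zero]
  have hdvd : p ∣ Nat.card W := by
    obtain ⟨w, hw⟩ := hW
    have h : addOrderOf w = p := addOrderOf_eq_prime (hpW w) hw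
    exact h ▸ addOrderOf_dvd_natCard w
  have h0 : (0 : W) ∈ MulAction.fixedPoints P W := fun x => by
    obtain ⟨g, hg⟩ := x.2
    show (x : Equiv.Perm W) 0 = 0
    rw [← hg]
    exact smul_zero g
  obtain ⟨w, hw, hne⟩ := hP.exists_fixed_point_of_prime_dvd_card_of_fixed_point W hdvd h0
  refine ⟨w, hne.symm, fun g => ?_⟩
  exact hw ⟨MulAction.toPermHom G W g, g, rfl⟩

/-- **No unipotent inertia on the kernel of `T_p`.** -/
theorem eq_bot_of_unipotent {N p : ℕ} [NeZero N] [NeZero (Nat.lcm N 2)] [NeZero p]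
    (hp : p.Prime) (hp2 : p ≠ 2) (hN : ¬ p ∣ N) {A : ValuationSubring Qbar}
    (hA : A.LiesOverPrime p) (hgood : HasTameModel A (Nat.lcm N 2))
    {ζ : Qbar} (hζ : IsPrimitiveRoot ζ p) (W : AddSubgroup (JZero N))
    (hfin : (W : Set (JZero N)).Finite) (hpW : ∀ w ∈ W, p • w = 0)
    (hT : ∀ w ∈ W, heckeOperatorAlong Qbar N p w = 0)
    (hstable : ∀ σ ∈ tameKernel A ζ, ∀ w ∈ W, σ • w ∈ W)
    (hsq : ∀ σ ∈ tameKernel A ζ, ∀ w ∈ W, σ • (σ • w - w) = σ • w - w) : W = ⊥ := by
  have : Finite W := hfin.to_subtype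
  let : DistribMulAction (tameSubgroup A ζ) W :=
    { smul := fun g w => ⟨(g : GalQ) • (w : JZero N), hstable g (mem_tameSubgroup.mp g.2) w w.2⟩
      one_smul := fun w => Subtype.ext (one_smul GalQ (w : JZero N))
      mul_smul := fun g h w => Subtype.ext (mul_smul (g : GalQ) (h : GalQ) (w : JZero N))
      smul_zero := fun g => Subtype.ext (smul_zero (g : GalQ))
      smul_add := fun g v w => Subtype.ext (smul_add (g : GalQ) (v : JZero N) (w : JZero N)) }
  by_contra hne
  obtain ⟨w₀, hw₀, hw₀0⟩ := (AddSubgroup.bot_or_exists_ne_zero W).resolve_left hne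
  obtain ⟨w, hw0, hw⟩ := exists_fixed_ne_zero (G := tameSubgroup A ζ) (W := W) hp
    (fun w => Subtype.ext (hpW w w.2))
    (fun g w => Subtype.ext (hsq g (mem_tameSubgroup.mp g.2) w w.2))
    ⟨⟨w₀, hw₀⟩, fun h => hw₀0 (congrArg Subtype.val h)⟩
  refine hw0 (Subtype.ext (eq_zero_of_hecke_eq_zero_of_fixed hp hp2 hN hA hgood hζ (hpW w w.2)
    (hT w w.2) fun σ hσ hζσ => ?_))
  exact congrArg Subtype.val (hw ⟨σ, hσ, hζσ⟩)

end Fermat.Agent.Supersingular
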